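import Fermat.Agent.ClassField.GW.Split
import Fermat.Agent.ClassField.GW.Coh
import Fermat.Agent.ClassField.GW.Artin

/-!
# Greenberg–Wiles: Euler characteristics of class modules from `qHom`

`TrivZ` is `ℤ` with trivial action.  For a class module `(C, u)` Artin induction applied to the
splitting module gives `χ(C)` from `qHom_D(C)` for the cyclic subgroups `D` of order prime to `p`:
* if `qHom_D C = qHom_D ℤ + k qHom_D ℤ[G]` then `χ(C) = log #M^G + k log #M`;
* if `qHom_D C + qHom_D ℤ[G/H] = qHom_D ℤ + qHom_D ℤ[G]` with `p ∤ #H` then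
  `χ(C) = log #M^G + log #M - log #M^H`.
-/

set_option autoImplicit false

noncomputable section

namespace Fermat.Agent.ClassField.GW

open S55

/-- `ℤ`, to carry the trivial action of a group. -/
@[ext]
structure TrivZ where
  /-- the integer -/
  val : ℤ

namespace TrivZ

instance : Add TrivZ := ⟨fun a b => ⟨a.val + b.val⟩⟩
instance : Zero TrivZ := ⟨⟨0⟩⟩
instance : Neg TrivZ := ⟨fun a => ⟨-a.val⟩⟩
instance : Sub TrivZ := ⟨fun a b => ⟨a.val - b.val⟩⟩

instance : AddCommGroup TrivZ where
  add_assoc a b c := TrivZ.ext (add_assoc _ _ _)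
  zero_add a := TrivZ.ext (zero_add _)
  add_zero a := TrivZ.ext (add_zero _)
  add_comm a b := TrivZ.ext (add_comm _ _)
  sub_eq_add_neg a b := TrivZ.ext (sub_eq_add_neg _ _)
  neg_add_cancel a := TrivZ.ext (neg_add_cancel _)
  nsmul := nsmulRec
  zsmul := zsmulRec

instance {G : Type*} [Group G] : DistribMulAction G TrivZ where
  smul _ a := a
  one_smul _ := rfl
  mul_smul _ _ _ := rfl
  smul_zero _ := rfl
  smul_add _ _ _ := rfl

/-- The underlying integer, as an isomorphism. -/
def valEquiv : TrivZ ≃+ ℤ where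
  toFun := TrivZ.val
  invFun := TrivZ.mk
  left_inv _ := rfl
  right_inv _ := rfl
  map_add' _ _ := rfl

theorem smul_eq {G : Type*} [Group G] (g : G) (a : TrivZ) : g • a = a := rfl

end TrivZ

/-- The permutation lattice `ℤ[G/H]`. -/
abbrev PermZ {G : Type} [Group G] (H : Subgroup G) : Type := PermMod (G ⧸ H) TrivZ

section General

variable {p : ℕ} [Fact p.Prime]

theorem dlog_prod (A B : Type*) [Finite A] [Finite B] [Nonempty A] [Nonempty B] :
    dlog p (A × B) = dlog p A + dlog p B := by
  unfold dlog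
  rw [Nat.card_prod, Nat.factorization_mul Nat.card_pos.ne' Nat.card_pos.ne', Finsupp.add_apply]
  push_cast
  ring

theorem dlog_of_subsingleton (p : ℕ) (A : Type*) [Subsingleton A] [Nonempty A] : dlog p A = 0 := by
  have : Unique A := uniqueOfSubsingleton (Classical.arbitrary A)
  simp [dlog]

theorem pFinite_prod {A B : Type*} [AddCommGroup A] [AddCommGroup B] (hA : PFinite p A)
    (hB : PFinite p B) : PFinite p (A × B) := by
  have := hA.quot
  have := hB.quot
  have := hA.tors
  have := hB.tors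
  refine ⟨Finite.of_surjective (fun w : (A ⧸ pSub p A) × (B ⧸ pSub p B) =>
    (QuotientAddGroup.mk (w.1.out, w.2.out) : (A × B) ⧸ pSub p (A × B))) fun x => ?_,
    Finite.of_injective (fun x : {x : A × B // p • x = 0} =>
      ((⟨x.1.1, congrArg Prod.fst x.2⟩ : {a : A // p • a = 0}),
        (⟨x.1.2, congrArg Prod.snd x.2⟩ : {b : B // p • b = 0}))) fun x y h => Subtype.ext
      (Prod.ext (congrArg (fun w => (w.1 : A)) h) (congrArg (fun w => (w.2 : B)) h))⟩
  induction x using QuotientAddGroup.induction_on with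
  | H w =>
    refine ⟨(QuotientAddGroup.mk w.1, QuotientAddGroup.mk w.2), QuotientAddGroup.eq.2 ?_⟩
    obtain ⟨a, ha⟩ := mem_pSub.1 (QuotientAddGroup.eq.1
      (Quotient.out_eq (QuotientAddGroup.mk w.1 : A ⧸ pSub p A)))
    obtain ⟨b, hb⟩ := mem_pSub.1 (QuotientAddGroup.eq.1
      (Quotient.out_eq (QuotientAddGroup.mk w.2 : B ⧸ pSub p B)))
    exact mem_pSub.2 ⟨(a, b), Prod.ext ha hb⟩

theorem PFinite.prod {A B : Type*} [AddCommGroup A] [AddCommGroup B] (hA : PFinite p A)
    (hB : PFinite p B) : PFinite p (A × B) := pFinite_prod hA hB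

theorem pFinite_of_moduleFinite (X : Type*) [AddCommGroup X] [Module.Finite ℤ X] : PFinite p X := by
  refine ⟨?_, ?_⟩
  · let q : X →+ X ⧸ pSub p X := QuotientAddGroup.mk' _
    have : Module.Finite ℤ (X ⧸ pSub p X) :=
      Module.Finite.of_surjective q.toIntLinearMap QuotientAddGroup.mk_surjective
    refine Module.finite_of_fg_torsion _ fun x => ?_
    obtain ⟨a, rfl⟩ := QuotientAddGroup.mk_surjective x
    refine ⟨⟨(p : ℤ), mem_nonZeroDivisors_of_ne_zero
      (Int.natCast_ne_zero.2 (Fact.out : p.Prime).ne_zero)⟩, ?_⟩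
    show (p : ℤ) • (a : X ⧸ pSub p X) = 0
    rw [natCast_zsmul, ← QuotientAddGroup.mk_nsmul, QuotientAddGroup.eq_zero_iff]
    exact mem_pSub.2 ⟨a, rfl⟩
  · let T : Submodule ℤ X := LinearMap.ker (DistribSMul.toAddMonoidHom X p).toIntLinearMap
    have hT : Finite T := by
      refine Module.finite_of_fg_torsion _ fun x => ⟨⟨(p : ℤ), mem_nonZeroDivisors_of_ne_zero
        (Int.natCast_ne_zero.2 (Fact.out : p.Prime).ne_zero)⟩, ?_⟩
      refine Subtype.ext ?_
      show (p : ℤ) • (x : X) = 0
      rw [natCast_zsmul]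
      exact LinearMap.mem_ker.1 x.2
    exact Finite.of_injective (fun x : {x : X // p • x = 0} => (⟨x.1, x.2⟩ : T)) fun a b h =>
      Subtype.ext (congrArg Subtype.val h)

variable {G : Type} [Group G] {M : Type} [AddCommGroup M] [DistribMulAction G M]
  {X Y : Type} [AddCommGroup X] [DistribMulAction G X] [AddCommGroup Y] [DistribMulAction G Y]

variable (G) in
/-- Splitting off a coordinate. -/
def indPiSucc (k : ℕ) : Ind G ℤ × Ind G (Fin k → ℤ) →+[G] Ind G (Fin (k + 1) → ℤ) where
  toFun w := ⟨fun τ => Fin.cons (w.1.val τ) (w.2.val τ)⟩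
  map_smul' _ _ := rfl
  map_zero' := Ind.ext (funext fun τ => funext fun i => by cases i using Fin.cases <;> rfl)
  map_add' _ _ := Ind.ext (funext fun τ => funext fun i => by cases i using Fin.cases <;> rfl)

variable (G) in
theorem indPiSucc_bijective (k : ℕ) : Function.Bijective (indPiSucc G k) := by
  refine ⟨fun v w h => Prod.ext (Ind.ext (funext fun τ => ?_))
    (Ind.ext (funext fun τ => funext fun i => ?_)),
    fun f => ⟨(⟨fun τ => f.val τ 0⟩, ⟨fun τ => Fin.tail (f.val τ)⟩),
      Ind.ext (funext fun τ => Fin.cons_self_tail (f.val τ))⟩⟩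
  · exact congrArg (fun u : Ind G (Fin (k + 1) → ℤ) => u.val τ 0) h
  · exact congrArg (fun u : Ind G (Fin (k + 1) → ℤ) => u.val τ i.succ) h

instance moduleFinite_indPi [Finite G] (k : ℕ) : Module.Finite ℤ (Ind G (Fin k → ℤ)) :=
  Module.Finite.equiv (AddEquiv.toIntLinearEquiv
    { toFun := fun v => ⟨v⟩, invFun := Ind.val, left_inv := fun _ => rfl, right_inv := fun _ => rfl,
      map_add' := fun _ _ => rfl } : (G → Fin k → ℤ) ≃ₗ[ℤ] Ind G (Fin k → ℤ))

instance moduleFinite_ind [Finite G] : Module.Finite ℤ (Ind G ℤ) :=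
  Module.Finite.equiv (AddEquiv.toIntLinearEquiv
    { toFun := fun v => ⟨v⟩, invFun := Ind.val, left_inv := fun _ => rfl, right_inv := fun _ => rfl,
      map_add' := fun _ _ => rfl } : (G → ℤ) ≃ₗ[ℤ] Ind G ℤ)

instance moduleFinite_trivZ : Module.Finite ℤ TrivZ :=
  Module.Finite.equiv TrivZ.valEquiv.symm.toIntLinearEquiv

theorem moduleFinite_permZ' [Finite G] (H : Subgroup G) : Module.Finite ℤ (PermZ H) :=
  Module.Finite.equiv (AddEquiv.toIntLinearEquiv
    { toFun := fun v => ⟨fun q => ⟨v q⟩⟩, invFun := fun f q => (f.val q).val,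
      left_inv := fun _ => rfl, right_inv := fun _ => rfl,
      map_add' := fun _ _ => rfl } : (G ⧸ H → ℤ) ≃ₗ[ℤ] PermZ H)


theorem isPresentation_freeCover [Fintype G] [Finite M] : IsPresentation (freeCover G M) :=
  haveI := Fintype.ofFinite M
  ⟨freeCover_surjective, (freePres G M).free_P, Module.Finite.of_basis (freePres G M).b⟩

theorem eulerChar_eq_euler [Fintype G] : eulerChar G p M X = euler p (freeCover G M) X := by
  rw [eulerChar, Subsingleton.elim (Fintype.ofFinite G) ‹_›]

/-- A map which is an isomorphism modulo `p` and on `p`-torsion does not change `qHom`. -/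
theorem qHom_eq_of_map (f : X →+[G] Y) (hsurj : ∀ y, ∃ x z, y = f x + p • z)
    (hinj : ∀ x z, f x = p • z → ∃ x', x = p • x')
    (htor : ∀ y, p • y = 0 → ∃ x, p • x = 0 ∧ f x = y)
    (htor' : ∀ x, p • x = 0 → f x = 0 → x = 0) :
    qHom G p M X = qHom G p M Y := by
  let f₁ : X ⧸ pSub p X →+[G] Y ⧸ pSub p Y :=
    { toFun := QuotientAddGroup.map (pSub p X) (pSub p Y) (f : X →+ Y) fun x hx => by
        obtain ⟨z, rfl⟩ := mem_pSub.1 hx
        exact mem_pSub.2 ⟨f z, (map_nsmul f p z).symm⟩
      map_smul' := fun g x => by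
        induction x using QuotientAddGroup.induction_on with
        | H z => exact congrArg QuotientAddGroup.mk (map_smul f g z)
      map_zero' := map_zero _
      map_add' := map_add _ }
  have h₁ : Function.Bijective f₁ := by
    refine ⟨(injective_iff_map_eq_zero _).2 fun x hx => ?_, fun y => ?_⟩
    · induction x using QuotientAddGroup.induction_on with
      | H a =>
        obtain ⟨z, hz⟩ := mem_pSub.1 ((QuotientAddGroup.eq_zero_iff _).1 hx)
        obtain ⟨a', ha'⟩ := hinj a z hz.symm
        exact (QuotientAddGroup.eq_zero_iff _).2 (mem_pSub.2 ⟨a', ha'.symm⟩)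
    · induction y using QuotientAddGroup.induction_on with
      | H b =>
        obtain ⟨a, z, rfl⟩ := hsurj b
        exact ⟨a, QuotientAddGroup.eq.2 (mem_pSub.2 ⟨z, (neg_add_cancel_left _ _).symm⟩)⟩
  let f₂ : pTor G p X →+[G] pTor G p Y :=
    { toFun := fun x => ⟨f x, by
        rw [mem_kerOf]
        show p • f (x : X) = 0
        rw [← map_nsmul]
        exact (congrArg f (mem_kerOf.1 x.2)).trans (map_zero f)⟩
      map_smul' := fun g x => Subtype.ext (map_smul f g (x : X))
      map_zero' := Subtype.ext (map_zero f)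
      map_add' := fun x y => Subtype.ext (map_add f (x : X) (y : X)) }
  have h₂ : Function.Bijective f₂ := by
    refine ⟨(injective_iff_map_eq_zero _).2 fun x hx => Subtype.ext
      (htor' x (mem_kerOf.1 x.2) (congrArg Subtype.val hx)), fun y => ?_⟩
    obtain ⟨x, hx, hxy⟩ := htor y (mem_kerOf.1 y.2)
    exact ⟨⟨x, mem_kerOf.2 hx⟩, Subtype.ext hxy⟩
  unfold qHom
  rw [dlog_homG_congr f₁ h₁, dlog_homG_congr f₂ h₂]

variable [Finite G] [Finite M] (hM : ∀ x : M, p • x = 0)
include hM

theorem eulerChar_congr_right (f : X →+[G] Y) (hf : Function.Bijective f) :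
    eulerChar G p M X = eulerChar G p M Y := by
  classical
  letI := Fintype.ofFinite G
  rw [eulerChar_eq_euler, eulerChar_eq_euler]
  simp only [euler]
  rw [dlog_homG_congr f hf]
  congr 1
  refine dlog_congr p (Equiv.ofBijective (postCoh (M := M) f)
    ⟨(injective_iff_map_eq_zero _).2 fun x hx => ?_, fun y => ?_⟩)
  · induction x using QuotientAddGroup.induction_on with
    | H c =>
      obtain ⟨L, hL⟩ := mem_resRange.1 ((QuotientAddGroup.eq_zero_iff _).1 hx)
      choose e he using fun z => hf.2 ((L : CHom (Ind G (M →₀ ℤ)) Y) z)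
      refine (QuotientAddGroup.eq_zero_iff _).2 (mem_resRange.2 ⟨⟨⟨AddMonoidHom.mk' e fun a b =>
        hf.1 (by rw [map_add, he, he, he, map_add])⟩, (CHom.fixed_iff _).2 fun g z => hf.1 ?_⟩,
        CHom.ext' fun r => hf.1 ((he _).trans
          (congrArg (fun z : CHom (kerOf (freeCover G M)) Y => z r) hL))⟩)
      show f (e (g • z)) = f (g • e z)
      rw [map_smul, he, he, (CHom.fixed_iff (L : CHom (Ind G (M →₀ ℤ)) Y)).1 L.2]
  · induction y using QuotientAddGroup.induction_on with
    | H c =>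
      choose e he using fun r => hf.2 ((c : CHom (kerOf (freeCover G M)) Y) r)
      refine ⟨QuotientAddGroup.mk ⟨⟨AddMonoidHom.mk' e fun a b =>
        hf.1 (by rw [map_add, he, he, he, map_add])⟩, (CHom.fixed_iff _).2 fun g r => hf.1 ?_⟩,
        congrArg QuotientAddGroup.mk (Subtype.ext (CHom.ext' fun r => he r))⟩
      show f (e (g • r)) = f (g • e r)
      rw [map_smul, he, he, (CHom.fixed_iff (c : CHom (kerOf (freeCover G M)) Y)).1 c.2]

theorem eulerChar_prod (hXf : PFinite p X) (hYf : PFinite p Y) :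
    eulerChar G p M (X × Y) = eulerChar G p M X + eulerChar G p M Y := by
  classical
  letI := Fintype.ofFinite G
  have := Fintype.ofFinite M
  have hπ : IsPresentation (freeCover G M) := isPresentation_freeCover
  have := finite_coh1 (G := G) hM hXf hπ
  have := finite_coh1 (G := G) hM hYf hπ
  have := finite_coh0 (G := G) hM hXf
  have := finite_coh0 (G := G) hM hYf
  rw [eulerChar_eq_euler, eulerChar_eq_euler, eulerChar_eq_euler]
  let pf : X × Y →+[G] X := { AddMonoidHom.fst X Y with map_smul' := fun _ _ => rfl }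
  let ps : X × Y →+[G] Y := { AddMonoidHom.snd X Y with map_smul' := fun _ _ => rfl }
  have hpair : ∀ (A : Type) [AddCommGroup A] [DistribMulAction G A] (a : homG G A X)
      (b : homG G A Y), ∃ c : homG G A (X × Y), postHom pf c = a ∧ postHom ps c = b :=
    fun A _ _ a b => ⟨⟨⟨(a : CHom A X).hom.prod (b : CHom A Y).hom⟩, (CHom.fixed_iff _).2
      fun g z => Prod.ext ((CHom.fixed_iff (a : CHom A X)).1 a.2 g z)
        ((CHom.fixed_iff (b : CHom A Y)).1 b.2 g z)⟩,
      Subtype.ext (CHom.ext' fun _ => rfl), Subtype.ext (CHom.ext' fun _ => rfl)⟩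
  have hb0 : Function.Bijective fun c : homG G M (X × Y) => (postHom pf c, postHom ps c) := by
    refine ⟨fun c d h => Subtype.ext (CHom.ext' fun m => Prod.ext
      (congrArg (fun z : homG G M X × homG G M Y => (z.1 : CHom M X) m) h)
      (congrArg (fun z : homG G M X × homG G M Y => (z.2 : CHom M Y) m) h)), fun w => ?_⟩
    obtain ⟨c, h₁, h₂⟩ := hpair M w.1 w.2
    exact ⟨c, Prod.ext h₁ h₂⟩
  let F : Coh1 (freeCover G M) (X × Y) →+ Coh1 (freeCover G M) X × Coh1 (freeCover G M) Y :=
    (postCoh pf).prod (postCoh ps)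
  have hb1 : Function.Bijective F := by
    refine ⟨(injective_iff_map_eq_zero _).2 fun x hx => ?_, fun w => ?_⟩
    · induction x using QuotientAddGroup.induction_on with
      | H c =>
        obtain ⟨L₁, hL₁⟩ := mem_resRange.1 ((QuotientAddGroup.eq_zero_iff _).1 (congrArg Prod.fst hx))
        obtain ⟨L₂, hL₂⟩ := mem_resRange.1 ((QuotientAddGroup.eq_zero_iff _).1 (congrArg Prod.snd hx))
        obtain ⟨L, h₁, h₂⟩ := hpair _ L₁ L₂
        refine (QuotientAddGroup.eq_zero_iff _).2 (mem_resRange.2 ⟨L, CHom.ext' fun r =>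
          Prod.ext ?_ ?_⟩)
        · exact (congrArg (fun z : homG G (Ind G (M →₀ ℤ)) X =>
            (z : CHom (Ind G (M →₀ ℤ)) X) r) h₁).trans
            (congrArg (fun z : CHom (kerOf (freeCover G M)) X => z r) hL₁)
        · exact (congrArg (fun z : homG G (Ind G (M →₀ ℤ)) Y =>
            (z : CHom (Ind G (M →₀ ℤ)) Y) r) h₂).trans
            (congrArg (fun z : CHom (kerOf (freeCover G M)) Y => z r) hL₂)
    · obtain ⟨a, b⟩ := w
      induction a using QuotientAddGroup.induction_on with
      | H a =>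
        induction b using QuotientAddGroup.induction_on with
        | H b =>
          obtain ⟨c, h₁, h₂⟩ := hpair _ a b
          exact ⟨QuotientAddGroup.mk c, Prod.ext (congrArg QuotientAddGroup.mk h₁)
            (congrArg QuotientAddGroup.mk h₂)⟩
  simp only [euler]
  rw [dlog_congr p (Equiv.ofBijective _ hb0), dlog_congr p (Equiv.ofBijective _ hb1), dlog_prod,
    dlog_prod]
  ring

theorem eulerChar_ind_pi (k : ℕ) :
    eulerChar G p M (Ind G (Fin k → ℤ)) = k * dlog p M := by
  induction k with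
  | zero =>
    have : Subsingleton (Ind G (Fin 0 → ℤ)) :=
      ⟨fun a b => Ind.ext (funext fun _ => Subsingleton.elim _ _)⟩
    letI := Fintype.ofFinite G
    rw [eulerChar_eq_euler]
    have : Subsingleton (homG G M (Ind G (Fin 0 → ℤ))) :=
      ⟨fun a b => Subtype.ext (CHom.ext' fun _ => Subsingleton.elim _ _)⟩
    have : Subsingleton (homG G (kerOf (freeCover G M)) (Ind G (Fin 0 → ℤ))) :=
      ⟨fun a b => Subtype.ext (CHom.ext' fun _ => Subsingleton.elim _ _)⟩
    have : Subsingleton (Coh1 (freeCover G M) (Ind G (Fin 0 → ℤ))) :=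
      QuotientAddGroup.mk_surjective.subsingleton
    simp [euler, dlog_of_subsingleton]
  | succ k ih =>
    rw [← eulerChar_congr_right hM (indPiSucc G k) (indPiSucc_bijective G k),
      eulerChar_prod hM (pFinite_of_moduleFinite _) (pFinite_of_moduleFinite _), ih,
      eulerChar_ind_int hM]
    push_cast
    ring

theorem qHom_ind_pi (D : Subgroup G) (hD : ¬ p ∣ Nat.card D) (k : ℕ) :
    qHom D p M (Ind G (Fin k → ℤ)) = k * qHom D p M (Ind G ℤ) := by
  induction k with
  | zero =>
    have : Subsingleton (Ind G (Fin 0 → ℤ)) :=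
      ⟨fun a b => Ind.ext (funext fun _ => Subsingleton.elim _ _)⟩
    rw [qHom_of_finite hD hM, Nat.cast_zero, zero_mul]
  | succ k ih =>
    rw [← qHom_congr hD hM (restrictHom D (indPiSucc G k)) (indPiSucc_bijective G k)]
    let i : Ind G ℤ →+[D] Ind G ℤ × Ind G (Fin k → ℤ) :=
      { AddMonoidHom.inl (Ind G ℤ) (Ind G (Fin k → ℤ)) with
        map_smul' := fun d x => Prod.ext rfl (smul_zero d).symm }
    let j : Ind G ℤ × Ind G (Fin k → ℤ) →+[D] Ind G (Fin k → ℤ) :=
      { AddMonoidHom.snd (Ind G ℤ) (Ind G (Fin k → ℤ)) with map_smul' := fun _ _ => rfl }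
    rw [(qHom_add hD hM (pFinite_of_moduleFinite _) (pFinite_of_moduleFinite _) i j
      (fun a b h => congrArg Prod.fst h) (fun b => ⟨(0, b), rfl⟩)
      fun y => ⟨fun h => ⟨y.1, Prod.ext rfl h.symm⟩, fun ⟨x, hx⟩ => hx ▸ rfl⟩).2, ih]
    push_cast
    ring

theorem eulerChar_permZ (H : Subgroup G) (hH : ¬ p ∣ Nat.card H) :
    eulerChar G p M (PermZ H) = dlog p (fixedSub H M) := by
  classical
  letI := Fintype.ofFinite G
  have hp0 : (p : ℤ) ≠ 0 := Int.natCast_ne_zero.2 (Fact.out : p.Prime).ne_zero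
  have htz : ∀ x : TrivZ, p • x = 0 → x = 0 := fun x hx => by
    have := congrArg TrivZ.valEquiv hx
    rw [map_nsmul, map_zero, smul_eq_zero] at this
    exact TrivZ.valEquiv.map_eq_zero_iff.1 (this.resolve_left (Fact.out : p.Prime).ne_zero)
  have hval : ∀ (f : PermZ H) (q : G ⧸ H), (p • f).val q = p • f.val q := fun f q =>
    map_nsmul (PermMod.evalHom q) p f
  rw [eulerChar_of_torsionFree hM fun x hx => PermMod.ext (funext fun q =>
    htz _ (by rw [← hval, hx]; rfl))]
  have hint := qHom_int hH hM (X := TrivZ) (fun _ _ => rfl) TrivZ.valEquiv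
  have h0 : dlog p (homG H M (pTor H p TrivZ)) = 0 := by
    have : Subsingleton (pTor H p TrivZ) := ⟨fun a b => Subtype.ext
      ((htz _ (mem_kerOf.1 a.2)).trans (htz _ (mem_kerOf.1 b.2)).symm)⟩
    have : Subsingleton (homG H M (pTor H p TrivZ)) :=
      ⟨fun a b => Subtype.ext (CHom.ext' fun _ => Subsingleton.elim _ _)⟩
    exact dlog_of_subsingleton p _
  rw [qHom, h0, sub_zero] at hint
  rw [← hint]
  -- reduction of the coordinates
  let red : PermZ H ⧸ pSub p (PermZ H) →+ (G ⧸ H → TrivZ ⧸ pSub p TrivZ) :=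
    QuotientAddGroup.lift _ (AddMonoidHom.mk' (fun f q => QuotientAddGroup.mk (f.val q))
      fun a b => funext fun q => rfl) fun f hf => funext fun q => by
        obtain ⟨g, rfl⟩ := mem_pSub.1 hf
        exact (QuotientAddGroup.eq_zero_iff _).2 (mem_pSub.2 ⟨g.val q, (hval g q).symm⟩)
  have hred : Function.Bijective red := by
    refine ⟨(injective_iff_map_eq_zero _).2 fun x hx => ?_, fun v => ⟨QuotientAddGroup.mk
      ⟨fun q => (v q).out⟩, funext fun q => Quotient.out_eq (v q)⟩⟩
    induction x using QuotientAddGroup.induction_on with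
    | H f =>
      choose w hw using fun q => mem_pSub.1 ((QuotientAddGroup.eq_zero_iff _).1 (congrFun hx q))
      exact (QuotientAddGroup.eq_zero_iff _).2 (mem_pSub.2
        ⟨⟨w⟩, PermMod.ext (funext fun q => (hval ⟨w⟩ q).trans (hw q))⟩)
  have hsm : ∀ (g : G) (c : PermZ H ⧸ pSub p (PermZ H)) q, red (g • c) q = red c (g⁻¹ • q) :=
    fun g c q => by
      induction c using QuotientAddGroup.induction_on with
      | H f => rfl
  have htriv : ∀ (h : H) (t : TrivZ ⧸ pSub p TrivZ), h • t = t := fun h t => by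
    induction t using QuotientAddGroup.induction_on with
    | H a => rfl
  let base : G ⧸ H := QuotientGroup.mk 1
  refine dlog_congr p
    { toFun := fun ψ => ⟨⟨((Pi.evalAddMonoidHom (fun _ : G ⧸ H => TrivZ ⧸ pSub p TrivZ) base).comp
        red).comp ψ.1.hom⟩, (CHom.fixed_iff _).2 fun h m => by
          show red (ψ.1 ((h : G) • m)) base = h • red (ψ.1 m) base
          rw [htriv, (CHom.fixed_iff ψ.1).1 ψ.2, hsm]
          refine congrArg _ ?_
          show (((h : G)⁻¹ * 1 : G) : G ⧸ H) = base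
          exact QuotientGroup.eq.2 (by simp)⟩
      invFun := fun l => ⟨⟨AddMonoidHom.mk' (fun m => (Equiv.ofBijective red hred).symm
          fun q => l.1 ((q.out)⁻¹ • m)) fun a b => hred.1 (funext fun q => by
        rw [Equiv.ofBijective_apply_symm_apply red hred, map_add,
          Equiv.ofBijective_apply_symm_apply red hred, Equiv.ofBijective_apply_symm_apply red hred]
        simp [smul_add])⟩, (CHom.fixed_iff _).2 fun g m => hred.1 (funext fun q => by
        show red ((Equiv.ofBijective red hred).symm fun q => l.1 ((q.out)⁻¹ • g • m)) q =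
          red (g • (Equiv.ofBijective red hred).symm fun q => l.1 ((q.out)⁻¹ • m)) q
        rw [hsm, Equiv.ofBijective_apply_symm_apply red hred,
          Equiv.ofBijective_apply_symm_apply red hred]
        have hmem : (g⁻¹ • q).out⁻¹ * (g⁻¹ * q.out) ∈ H := QuotientGroup.eq.1 (by
          rw [QuotientGroup.out_eq']
          show g⁻¹ • q = g⁻¹ • (q.out : G ⧸ H)
          rw [QuotientGroup.out_eq'])
        have e := ((CHom.fixed_iff l.1).1 l.2 ⟨_, hmem⟩ (q.out⁻¹ • g • m)).trans (htriv _ _)
        rw [← e]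
        congr 1
        show ((g⁻¹ • q).out⁻¹ * (g⁻¹ * q.out)) • q.out⁻¹ • g • m = _
        simp [← mul_smul, mul_assoc])⟩
      left_inv := fun ψ => Subtype.ext (CHom.ext' fun m => hred.1 (funext fun q => by
        show red ((Equiv.ofBijective red hred).symm fun q => red (ψ.1 (q.out⁻¹ • m)) base) q =
          red (ψ.1 m) q
        rw [Equiv.ofBijective_apply_symm_apply red hred, (CHom.fixed_iff ψ.1).1 ψ.2, hsm]
        refine congrArg _ ?_
        show ((q.out⁻¹⁻¹ * 1 : G) : G ⧸ H) = q
        rw [inv_inv, mul_one]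
        exact Quotient.out_eq q))
      right_inv := fun l => Subtype.ext (CHom.ext' fun m => by
        show red ((Equiv.ofBijective red hred).symm fun q => l.1 (q.out⁻¹ • m)) base = l.1 m
        rw [Equiv.ofBijective_apply_symm_apply red hred]
        obtain ⟨h, hh⟩ := QuotientGroup.mk_out_eq_mul H (1 : G)
        have e := ((CHom.fixed_iff l.1).1 l.2 h (base.out⁻¹ • m)).trans (htriv _ _)
        rw [← e]
        congr 1
        show (h : G) • base.out⁻¹ • m = m
        rw [show base.out = (h : G) from hh.trans (one_mul _), smul_inv_smul]) }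

end General

section ClassModule

variable {p : ℕ} [Fact p.Prime] {G : Type} [Group G] [Fintype G] {M : Type} [AddCommGroup M]
  [DistribMulAction G M] [Finite M] [Module (ZMod p) M]
  {C : Type} [AddCommGroup C] [DistribMulAction G C] {u : G × G → C}

/-- The augmentation. -/
def sumInd (G : Type) [Group G] [Fintype G] : Ind G ℤ →+[G] TrivZ where
  toFun f := ⟨∑ τ : G, f.val τ⟩
  map_smul' g f := TrivZ.ext (Fintype.sum_equiv (Equiv.mulLeft g⁻¹) _ _ fun _ => rfl)
  map_zero' := TrivZ.ext (by simp; rfl)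
  map_add' f f' := TrivZ.ext (Finset.sum_add_distrib)

/-- The component in the augmentation lattice. -/
def splitProj (u : G × G → C) [IsTwoCocycle u] : SplitMod u →+[G] kerOf (sumInd G) where
  toFun x := ⟨⟨x.f⟩, mem_kerOf.2 (TrivZ.ext x.hf)⟩
  map_smul' _ _ := rfl
  map_zero' := rfl
  map_add' _ _ := rfl

theorem pAcyclic_splitMod [IsTwoCocycle u] (hu : IsPClassModule p G C u) :
    PAcyclic G p (SplitMod u) :=
  fun _ hQ => SplitMod.acyclic hu hQ

instance moduleFinite_augKer : Module.Finite ℤ (kerOf (sumInd G)) :=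
  Module.Finite.equiv ((AddEquiv.refl (AddSubgroup.toIntSubmodule (kerOf (sumInd G)))).toIntLinearEquiv :
    AddSubgroup.toIntSubmodule (kerOf (sumInd G)) ≃ₗ[ℤ] kerOf (sumInd G))

omit [Finite M] [Module (ZMod p) M] in
theorem pFinite_splitMod [IsTwoCocycle u] (hC : PFinite p C) : PFinite p (SplitMod u) := by
  have hI : PFinite p (kerOf (sumInd G)) := pFinite_of_moduleFinite _
  have := hC.quot
  have := hI.quot
  have := hC.tors
  have := hI.tors
  refine ⟨Finite.of_surjective (fun w : (C ⧸ pSub p C) × (kerOf (sumInd G) ⧸ pSub p (kerOf (sumInd G))) =>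
    (QuotientAddGroup.mk (SplitMod.mk w.1.out (w.2.out : Ind G ℤ).val
      (congrArg TrivZ.val (mem_kerOf.1 w.2.out.2))) : SplitMod u ⧸ pSub p (SplitMod u))) fun x => ?_,
    ?_⟩
  · induction x using QuotientAddGroup.induction_on with
    | H y =>
      refine ⟨(QuotientAddGroup.mk y.c, QuotientAddGroup.mk (splitProj u y)),
        QuotientAddGroup.eq.2 ?_⟩
      obtain ⟨a, ha⟩ := mem_pSub.1 (QuotientAddGroup.eq.1
        (Quotient.out_eq (QuotientAddGroup.mk y.c : C ⧸ pSub p C)))
      obtain ⟨b, hb⟩ := mem_pSub.1 (QuotientAddGroup.eq.1 (Quotient.out_eq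
        (QuotientAddGroup.mk (splitProj u y) : kerOf (sumInd G) ⧸ pSub p (kerOf (sumInd G)))))
      refine mem_pSub.2 ⟨⟨a, (b : Ind G ℤ).val, congrArg TrivZ.val (mem_kerOf.1 b.2)⟩,
        SplitMod.ext ((SplitMod.nsmul_c p _).trans ha) (funext fun τ => ?_)⟩
      rw [SplitMod.nsmul_f, ← nsmul_eq_mul, ← Ind.nsmul_apply]
      exact congrArg (fun z : kerOf (sumInd G) => (z : Ind G ℤ).val τ) hb
  · exact Finite.of_injective (fun x : {x : SplitMod u // p • x = 0} =>
      ((⟨x.1.c, (SplitMod.nsmul_c p x.1).symm.trans (congrArg SplitMod.c x.2)⟩ :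
          {a : C // p • a = 0}),
        (⟨splitProj u x.1, by rw [← map_nsmul, x.2, map_zero]⟩ :
          {b : kerOf (sumInd G) // p • b = 0})))
      fun x y h => Subtype.ext (SplitMod.ext (congrArg (fun w => (w.1 : C)) h)
        (congrArg (fun w => ((w.2 : kerOf (sumInd G)) : Ind G ℤ).val) h))

theorem euler_classModule_aux [IsTwoCocycle u] (hu : IsPClassModule p G C u) (hC : PFinite p C) :
    PFinite p (SplitMod u) ∧ euler p (freeCover G M) C =
      eulerChar G p M (SplitMod u) - (dlog p M - dlog p (fixedSub G M)) := by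
  have hM : ∀ x : M, p • x = 0 := ZModModule.char_nsmul_eq_zero p
  have hC' : PFinite p (SplitMod u) := pFinite_splitMod hC
  have := finite_coh1 (G := G) hM hC' (isPresentation_freeCover (G := G) (M := M))
  have := finite_coh0 (G := G) (M := M) hM hC'
  exact ⟨hC', by rw [euler_eq_splitMod hu, eulerChar_eq_euler]⟩

theorem qHom_splitMod (hM : ∀ x : M, p • x = 0) [IsTwoCocycle u] (_hu : IsPClassModule p G C u)
    (hC : PFinite p C) (D : Subgroup G) (hD : ¬ p ∣ Nat.card D) :
    qHom D p M (SplitMod u) + qHom D p M TrivZ = qHom D p M C + qHom D p M (Ind G ℤ) := by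
  have hI : PFinite p (kerOf (sumInd G)) := pFinite_of_moduleFinite _
  rw [(qHom_add hD hM hC hI (restrictHom D (splitIncl u)) (restrictHom D (splitProj u))
      splitIncl_injective
      (fun b => ⟨⟨0, (b : Ind G ℤ).val, congrArg TrivZ.val (mem_kerOf.1 b.2)⟩, rfl⟩)
      fun y => ⟨fun h => ⟨y.c, SplitMod.ext rfl
        (congrArg (fun z : kerOf (sumInd G) => (z : Ind G ℤ).val) h).symm⟩,
        fun ⟨c, hc⟩ => hc ▸ rfl⟩).2,
    (qHom_add hD hM hI (pFinite_of_moduleFinite _) (restrictHom D (kerIncl (sumInd G)))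
      (restrictHom D (sumInd G)) Subtype.val_injective
      (fun b => ⟨Ind.single 1 b.val, TrivZ.ext (by
        classical
        show ∑ τ : G, (if τ = 1 then b.val else 0) = b.val
        simp)⟩)
      fun y => ⟨fun h => ⟨⟨y, h⟩, rfl⟩, fun ⟨c, hc⟩ => hc ▸ mem_kerOf.1 c.2⟩).2]
  ring

omit [Finite M] [Module (ZMod p) M] in
theorem PAcyclic.prod {A B : Type} [AddCommGroup A] [DistribMulAction G A] [AddCommGroup B]
    [DistribMulAction G B] (hA : PAcyclic G p A) (hB : PAcyclic G p B) : PAcyclic G p (A × B) := by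
  intro Q hQ
  refine ⟨fun H z hz => ?_, fun H c hc => ?_⟩
  · obtain ⟨a, ha⟩ := (hA Q hQ).h1 H (fun h => (z h).1) (funext fun x =>
      congrArg Prod.fst (congrFun hz x))
    obtain ⟨b, hb⟩ := (hB Q hQ).h1 H (fun h => (z h).2) (funext fun x =>
      congrArg Prod.snd (congrFun hz x))
    exact ⟨(a, b), funext fun h => Prod.ext (congrFun ha h) (congrFun hb h)⟩
  · obtain ⟨a, ha⟩ := (hA Q hQ).h2 H (fun x => (c x).1) fun g h j => congrArg Prod.fst (hc g h j)
    obtain ⟨b, hb⟩ := (hB Q hQ).h2 H (fun x => (c x).2) fun g h j => congrArg Prod.snd (hc g h j)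
    exact ⟨fun h => (a h, b h), funext fun x => Prod.ext (congrFun ha x) (congrFun hb x)⟩

omit [Finite M] [Module (ZMod p) M] in
theorem pAcyclic_permZ (H : Subgroup G) (hH : ¬ p ∣ Nat.card H) : PAcyclic G p (PermZ H) := by
  classical
  intro Q hQ
  let i : PermZ H →+[G] Ind G ℤ :=
    { toFun := fun f => ⟨fun τ => (f.val (QuotientGroup.mk τ)).val⟩
      map_smul' := fun _ _ => rfl
      map_zero' := rfl
      map_add' := fun _ _ => rfl }
  have : Fintype H := Fintype.ofFinite H
  have hrdef : ∀ (e : Ind G ℤ) (g g' : G), (g : G ⧸ H) = g' →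
      ∑ h : H, e.val (g * h) = ∑ h : H, e.val (g' * h) := fun e g g' hg =>
    Fintype.sum_equiv (Equiv.mulLeft (⟨g⁻¹ * g', QuotientGroup.eq.1 hg⟩ : H)⁻¹) _ _ fun h => by
      simp [mul_assoc]
  let r : Ind G ℤ →+[G] PermZ H :=
    { toFun := fun e => ⟨fun q => ⟨∑ h : H, e.val (q.out * h)⟩⟩
      map_smul' := fun g e => PermMod.ext (funext fun q => TrivZ.ext (by
        show ∑ h : H, e.val (g⁻¹ * (q.out * h)) = ∑ h : H, e.val ((g⁻¹ • q).out * h)
        simp only [← mul_assoc]
        refine hrdef e _ _ ?_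
        rw [QuotientGroup.out_eq']
        show g⁻¹ • (q.out : G ⧸ H) = g⁻¹ • q
        rw [QuotientGroup.out_eq']))
      map_zero' := PermMod.ext (funext fun q => TrivZ.ext (by simp; rfl))
      map_add' := fun a b => PermMod.ext (funext fun q => TrivZ.ext (by
        simp only [Ind.add_apply, Finset.sum_add_distrib]
        rfl)) }
  have hri : ∀ f, r (i f) = Nat.card H • f := fun f => PermMod.ext (funext fun q => TrivZ.ext (by
    show ∑ h : H, (f.val ((q.out * h : G) : G ⧸ H)).val = ((Nat.card H • f).val q).val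
    rw [show (Nat.card H • f).val q = Nat.card H • f.val q from map_nsmul (PermMod.evalHom q) _ f,
      show (Nat.card H • f.val q).val = Nat.card H • (f.val q).val from map_nsmul TrivZ.valEquiv _ _,
      Nat.card_eq_fintype_card, ← Finset.card_univ, ← Finset.sum_const]
    refine Finset.sum_congr rfl fun h _ => ?_
    congr 2
    conv_rhs => rw [← Quotient.out_eq q]
    exact QuotientGroup.eq.2 (by simp)))
  have hsm : ∀ (K : Subgroup Q) (g : K) (x : PermZ H), i (g • x) = g • i x := fun K g x =>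
    map_smul i ((g : Q) : G) x
  have hsm' : ∀ (K : Subgroup Q) (g : K) (x : Ind G ℤ), r (g • x) = g • r x := fun K g x =>
    map_smul r ((g : Q) : G) x
  have hcop : ∀ K : Subgroup Q, Nat.Coprime (Nat.card H) (Nat.card K) := fun K => by
    obtain ⟨n, hn⟩ := IsPGroup.iff_card.1 (hQ.to_subgroup K)
    rw [hn]
    exact Nat.Coprime.pow_right n (((Fact.out : p.Prime).coprime_iff_not_dvd.2 hH).symm)
  have hbez : ∀ K : Subgroup Q, ∃ a b : ℤ, a * Nat.card H + b * Nat.card K = 1 := fun K => by
    obtain ⟨a, b, hab⟩ := Int.isCoprime_iff_nat_coprime.2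
      (by simpa using hcop K : Nat.Coprime (Nat.card H : ℤ).natAbs (Nat.card K : ℤ).natAbs)
    exact ⟨a, b, hab⟩
  refine ⟨fun K z hz => ?_, fun K c hc => ?_⟩
  · have : Fintype K := Fintype.ofFinite K
    obtain ⟨x, hx⟩ := (pAcyclic_ind (G := G) (p := p) ℤ Q hQ).h1 K (fun g => i (z g))
      (funext fun ⟨g, h⟩ => by
        have := congrArg i (congrFun hz (g, h))
        simp only [d1, Pi.zero_apply, map_add, map_sub, map_zero, hsm] at this
        exact this)
    have h1 : ∀ g : K, g • r x - r x = Nat.card H • z g := fun g => by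
      rw [← hri, ← hsm', ← map_sub]
      exact congrArg r (congrFun hx g)
    let y : PermZ H := -∑ j : K, z j
    have h2 : ∀ g : K, g • y - y = Nat.card K • z g := fun g => by
      have e : ∑ j : K, z (g * j) = ∑ j : K, z j := Fintype.sum_equiv (Equiv.mulLeft g) _ _ fun _ => rfl
      have hco : ∀ j, z (g * j) = g • z j + z g := fun j => by
        have := congrFun hz (g, j)
        simp only [d1, Pi.zero_apply] at this
        rw [eq_comm, ← sub_eq_zero, ← this]; abel
      simp only [hco, Finset.sum_add_distrib, Finset.sum_const, Finset.card_univ,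
        ← Nat.card_eq_fintype_card, ← Finset.smul_sum] at e
      simp only [y, smul_neg]
      rw [eq_sub_of_add_eq' e]; abel
    obtain ⟨a, b, hab⟩ := hbez K
    refine ⟨a • r x + b • y, funext fun g => ?_⟩
    show g • (a • r x + b • y) - (a • r x + b • y) = z g
    rw [smul_add, smul_comm g a, smul_comm g b, add_sub_add_comm, ← smul_sub, ← smul_sub, h1, h2,
      ← natCast_zsmul, ← natCast_zsmul (z g) (Nat.card K), ← mul_smul, ← mul_smul, ← add_smul,
      hab, one_smul]
  · have : Fintype K := Fintype.ofFinite K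
    obtain ⟨β, hβ⟩ := (pAcyclic_ind (G := G) (p := p) ℤ Q hQ).h2 K (fun x => i (c x)) fun g h j => by
      have := congrArg i (hc g h j)
      simp only [map_add, map_sub, map_zero, hsm] at this
      exact this
    have h1 : ∀ g h : K, g • r (β h) - r (β (g * h)) + r (β g) = Nat.card H • c (g, h) :=
      fun g h => by
        rw [← hri, ← hsm', ← map_sub, ← map_add]
        exact congrArg r (congrFun hβ (g, h))
    let γ : K → PermZ H := fun g => ∑ j : K, c (g, j)
    have h2 : ∀ g h : K, g • γ h - γ (g * h) + γ g = Nat.card K • c (g, h) := fun g h => by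
      have e : ∑ j : K, (g • c (h, j) - c (g * h, j) + c (g, h * j) - c (g, h)) = 0 :=
        Finset.sum_eq_zero fun j _ => hc g h j
      have e' : ∑ j : K, c (g, h * j) = γ g := Fintype.sum_equiv (Equiv.mulLeft h) _ _ fun _ => rfl
      simp only [Finset.sum_add_distrib, Finset.sum_sub_distrib, ← Finset.smul_sum, e',
        Finset.sum_const, Finset.card_univ, ← Nat.card_eq_fintype_card, sub_eq_zero] at e
      exact e
    obtain ⟨a, b, hab⟩ := hbez K
    refine ⟨fun g => a • r (β g) + b • γ g, funext fun ⟨g, h⟩ => ?_⟩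
    show g • (a • r (β h) + b • γ h) - (a • r (β (g * h)) + b • γ (g * h)) +
      (a • r (β g) + b • γ g) = c (g, h)
    rw [smul_add, smul_comm g a, smul_comm g b, add_sub_add_comm, add_add_add_comm, ← smul_sub,
      ← smul_sub, ← smul_add, ← smul_add, h1, h2, ← natCast_zsmul,
      ← natCast_zsmul (c (g, h)) (Nat.card K), ← mul_smul, ← mul_smul, ← add_smul, hab, one_smul]

/-- `χ(C)` when `qHom_D C = qHom_D ℤ + k qHom_D ℤ[G]`. -/
theorem euler_classModule_of_qHom (hu : IsPClassModule p G C u) (hC : PFinite p C) (k : ℕ)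
    (h : ∀ D : Subgroup G, IsCyclic D → ¬ p ∣ Nat.card D →
      qHom D p M C = qHom D p M TrivZ + k * qHom D p M (Ind G ℤ)) :
    euler p (freeCover G M) C = dlog p (fixedSub G M) + k * dlog p M := by
  classical
  have : IsTwoCocycle u := ⟨hu.cocycle⟩
  have hM : ∀ x : M, p • x = 0 := ZModModule.char_nsmul_eq_zero p
  obtain ⟨hC', heul⟩ := euler_classModule_aux (M := M) hu hC
  rw [heul, eulerChar_eq_of_qHom_eq hM (pAcyclic_splitMod hu) (pAcyclic_ind (Fin (k + 1) → ℤ))
    hC' (pFinite_of_moduleFinite _) fun D hD hD' => ?_, eulerChar_ind_pi hM]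
  · push_cast
    ring
  · have h1 := qHom_splitMod hM hu hC D hD'
    rw [qHom_ind_pi hM D hD']
    have h2 := h D hD hD'
    push_cast
    linarith

/-- `χ(C)` when `qHom_D C + qHom_D ℤ[G/H] = qHom_D ℤ + qHom_D ℤ[G]`. -/
theorem euler_classModule_of_qHom_perm (hu : IsPClassModule p G C u) (hC : PFinite p C)
    (H : Subgroup G) (hH : ¬ p ∣ Nat.card H)
    (h : ∀ D : Subgroup G, IsCyclic D → ¬ p ∣ Nat.card D →
      qHom D p M C + qHom D p M (PermZ H) = qHom D p M TrivZ + qHom D p M (Ind G ℤ)) :
    euler p (freeCover G M) C = dlog p (fixedSub G M) + dlog p M - dlog p (fixedSub H M) := by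
  classical
  have : IsTwoCocycle u := ⟨hu.cocycle⟩
  have hM : ∀ x : M, p • x = 0 := ZModModule.char_nsmul_eq_zero p
  have := moduleFinite_permZ' H
  obtain ⟨hC', heul⟩ := euler_classModule_aux (M := M) hu hC
  have h1 := eulerChar_eq_of_qHom_eq hM (X := SplitMod u × PermZ H) (Y := Ind G (Fin 2 → ℤ))
    ((pAcyclic_splitMod hu).prod (pAcyclic_permZ H hH)) (pAcyclic_ind _)
    (hC'.prod (pFinite_of_moduleFinite _)) (pFinite_of_moduleFinite _) fun D hD hD' => ?_
  · rw [eulerChar_prod hM hC' (pFinite_of_moduleFinite _), eulerChar_permZ hM H hH,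
      eulerChar_ind_pi hM] at h1
    rw [heul]
    push_cast at h1
    linarith
  · have h2 := qHom_splitMod hM hu hC D hD'
    let i : SplitMod u →+[D] SplitMod u × PermZ H :=
      { AddMonoidHom.inl (SplitMod u) (PermZ H) with
        map_smul' := fun d x => Prod.ext rfl (smul_zero d).symm }
    let j : SplitMod u × PermZ H →+[D] PermZ H :=
      { AddMonoidHom.snd (SplitMod u) (PermZ H) with map_smul' := fun _ _ => rfl }
    rw [(qHom_add hD' hM hC' (pFinite_of_moduleFinite _) i j (fun a b h => congrArg Prod.fst h)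
      (fun b => ⟨(0, b), rfl⟩)
      fun y => ⟨fun h => ⟨y.1, Prod.ext rfl h.symm⟩, fun ⟨x, hx⟩ => hx ▸ rfl⟩).2,
      qHom_ind_pi hM D hD']
    have h3 := h D hD hD'
    push_cast
    linarith

end ClassModule

end Fermat.Agent.ClassField.GW

end
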