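import Fermat.Agent.ClassField.GW.Values.Basic
import Mathlib.NumberTheory.Padics.RingHoms

/-!
# Coinduced modules and their `qHom`

`coindSub H U`: the functions `F : G → U` with `F (h g) = h • F g`.  `qHom` of a coinduced module
only depends on `U` up to isogeny and through `U/pU`; for `U = ℤ_p[H]` it is `qHom` of `ℤ[G]`.
-/

set_option autoImplicit false

noncomputable section

namespace Fermat.Agent.ClassField.GW

open S55

section Defs

variable {G : Type} [Group G] (H : Subgroup G) (U : Type) [AddCommGroup U] [DistribMulAction H U]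

/-- Equivariant functions `G → U`. -/
def coindSub : AddSubgroup (G → U) where
  carrier := {F | ∀ (h : H) (g : G), F ((h : G) * g) = h • F g}
  add_mem' {F F'} hF hF' h g := by simp only [Pi.add_apply, hF h g, hF' h g, smul_add]
  zero_mem' h g := (smul_zero h).symm
  neg_mem' {F} hF h g := by simp only [Pi.neg_apply, hF h g, smul_neg]

/-- The coinduced module. -/
abbrev Coind : Type := ↥(coindSub H U)

instance coindAction : DistribMulAction G (Coind H U) where
  smul g F := ⟨fun x => F.1 (x * g), fun h x => by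
    show F.1 (h * x * g) = h • F.1 (x * g)
    rw [mul_assoc]; exact F.2 h (x * g)⟩
  one_smul F := Subtype.ext (funext fun x => congrArg F.1 (mul_one x))
  mul_smul g g' F := Subtype.ext (funext fun x => congrArg F.1 (mul_assoc x g g').symm)
  smul_zero g := rfl
  smul_add g F F' := rfl

theorem coind_smul_apply (g : G) (F : Coind H U) (x : G) : (g • F).1 x = F.1 (x * g) := rfl

/-- The right cosets. -/
abbrev RCosets : Type := Quotient (QuotientGroup.rightRel H)

variable {H U}

/-- The factor in `H` of an element. -/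
def cosetPart (g : G) : H :=
  ⟨g * ((Quotient.mk (QuotientGroup.rightRel H) g).out)⁻¹,
    QuotientGroup.rightRel_apply.1 (Quotient.mk_out (s := QuotientGroup.rightRel H) g)⟩

/-- A coinduced element is its values on representatives. -/
def coindEquiv : Coind H U ≃+ (RCosets H → U) where
  toFun F q := F.1 q.out
  invFun v := ⟨fun g => cosetPart (H := H) g • v (Quotient.mk _ g), fun h g => by
    have e : Quotient.mk (QuotientGroup.rightRel H) ((h : G) * g) = Quotient.mk _ g :=
      Quotient.sound (QuotientGroup.rightRel_apply.2 (by simp))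
    show cosetPart (H := H) ((h : G) * g) • v (Quotient.mk _ ((h : G) * g)) =
      h • cosetPart (H := H) g • v (Quotient.mk _ g)
    rw [← mul_smul, e]
    congr 1
    refine Subtype.ext ?_
    show (h : G) * g * ((Quotient.mk (QuotientGroup.rightRel H) ((h : G) * g)).out)⁻¹ =
      (h : G) * (g * ((Quotient.mk (QuotientGroup.rightRel H) g).out)⁻¹)
    rw [e, mul_assoc]⟩
  left_inv F := Subtype.ext (funext fun g => by
    show cosetPart (H := H) g • F.1 (Quotient.mk _ g).out = F.1 g
    rw [← F.2]
    exact congrArg F.1 (inv_mul_cancel_right g _))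
  right_inv v := funext fun q => by
    show cosetPart (H := H) q.out • v (Quotient.mk _ q.out) = v q
    rw [Quotient.out_eq, show cosetPart (H := H) q.out = 1 from Subtype.ext (by
      show q.out * ((Quotient.mk (QuotientGroup.rightRel H) q.out).out)⁻¹ = 1
      rw [Quotient.out_eq, mul_inv_cancel]), one_smul]
  map_add' _ _ := rfl

variable {U' : Type} [AddCommGroup U'] [DistribMulAction H U']

/-- Functoriality. -/
def coindMap (f : U →+[H] U') : Coind H U →+[G] Coind H U' where
  toFun F := ⟨fun g => f (F.1 g), fun h g => by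
    show f (F.1 ((h : G) * g)) = h • f (F.1 g)
    rw [F.2]; exact map_smul f h _⟩
  map_smul' _ _ := rfl
  map_zero' := Subtype.ext (funext fun _ => map_zero f)
  map_add' _ _ := Subtype.ext (funext fun _ => map_add f _ _)

theorem coindEquiv_map (f : U →+[H] U') (F : Coind H U) (q : RCosets H) :
    coindEquiv (coindMap f F) q = f (coindEquiv F q) := rfl

theorem coindMap_injective {f : U →+[H] U'} (hf : Function.Injective f) :
    Function.Injective (coindMap f) := fun _ _ h =>
  Subtype.ext (funext fun g => hf (congrArg (fun F : Coind H U' => F.1 g) h))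

theorem coindMap_surjective {f : U →+[H] U'} (hf : Function.Surjective f) :
    Function.Surjective (coindMap f) := fun F => by
  choose v hv using fun q => hf (coindEquiv F q)
  refine ⟨coindEquiv.symm v, coindEquiv.injective (funext fun q => ?_)⟩
  rw [coindEquiv_map, AddEquiv.apply_symm_apply, hv]

theorem coindEquiv_nsmul (n : ℕ) (F : Coind H U) (q : RCosets H) :
    coindEquiv (n • F) q = n • coindEquiv F q := by
  rw [map_nsmul, Pi.smul_apply]

theorem pFinite_coind [Finite G] {p : ℕ} (hU : PFinite p U) : PFinite p (Coind H U) := by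
  have := hU.quot
  have := hU.tors
  refine ⟨Finite.of_surjective (fun w : RCosets H → U ⧸ pSub p U =>
      (QuotientAddGroup.mk (coindEquiv.symm fun q => (w q).out) :
        Coind H U ⧸ pSub p (Coind H U))) fun x => ?_,
    Finite.of_injective (fun F : {F : Coind H U // p • F = 0} => fun q : RCosets H =>
      (⟨coindEquiv F.1 q, by rw [← coindEquiv_nsmul, F.2, map_zero]; rfl⟩ : {u : U // p • u = 0}))
      fun F F' h => Subtype.ext (coindEquiv.injective (funext fun q =>
        congrArg Subtype.val (congrFun h q)))⟩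
  induction x using QuotientAddGroup.induction_on with
  | H F =>
    refine ⟨fun q => QuotientAddGroup.mk (coindEquiv F q), QuotientAddGroup.eq.2 ?_⟩
    choose a ha using fun q => mem_pSub.1 (QuotientAddGroup.eq.1
      (Quotient.out_eq (QuotientAddGroup.mk (coindEquiv F q) : U ⧸ pSub p U)))
    refine mem_pSub.2 ⟨coindEquiv.symm a, coindEquiv.injective (funext fun q => ?_)⟩
    rw [coindEquiv_nsmul, map_add, map_neg, AddEquiv.apply_symm_apply,
      AddEquiv.apply_symm_apply, ha]
    rfl

theorem coindMap_finite_ker [Finite G] (f : U →+[H] U') (hf : Finite (kerOf f)) :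
    Finite (kerOf (coindMap f)) :=
  Finite.of_injective (fun F : kerOf (coindMap f) => fun q : RCosets H =>
    (⟨coindEquiv F.1 q, mem_kerOf.2 (by rw [← coindEquiv_map, mem_kerOf.1 F.2, map_zero]; rfl)⟩ :
      kerOf f))
    fun F F' h => Subtype.ext (coindEquiv.injective (funext fun q =>
      congrArg Subtype.val (congrFun h q)))

theorem coindMap_finite_coker [Finite G] (f : U →+[H] U')
    (hf : Finite (U' ⧸ (f : U →+ U').range)) :
    Finite (Coind H U' ⧸ (coindMap f : Coind H U →+ Coind H U').range) := by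
  refine Finite.of_surjective (fun w : RCosets H → U' ⧸ (f : U →+ U').range =>
    QuotientAddGroup.mk (coindEquiv.symm fun q => (w q).out)) fun x => ?_
  induction x using QuotientAddGroup.induction_on with
  | H F =>
    refine ⟨fun q => QuotientAddGroup.mk (coindEquiv F q), QuotientAddGroup.eq.2 ?_⟩
    choose a ha using fun q => QuotientAddGroup.eq.1
      (Quotient.out_eq (QuotientAddGroup.mk (coindEquiv F q) : U' ⧸ (f : U →+ U').range))
    refine ⟨coindEquiv.symm a, coindEquiv.injective (funext fun q => ?_)⟩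
    show coindEquiv (coindMap f (coindEquiv.symm a)) q = _
    rw [coindEquiv_map, map_add, map_neg, AddEquiv.apply_symm_apply, AddEquiv.apply_symm_apply]
    exact ha q

end Defs

section QHom

variable {p : ℕ} [Fact p.Prime] {G : Type} [Group G] {M : Type} [AddCommGroup M]
  [DistribMulAction G M]

/-- Two modules with the same reduction and without `p`-torsion have the same `qHom`. -/
theorem qHom_eq_of_reduction {X Y Z : Type} [AddCommGroup X] [DistribMulAction G X]
    [AddCommGroup Y] [DistribMulAction G Y] [AddCommGroup Z] [DistribMulAction G Z]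
    (φ : X →+[G] Z) (ψ : Y →+[G] Z) (hφ : Function.Surjective φ) (hψ : Function.Surjective ψ)
    (hφk : ∀ x, φ x = 0 ↔ ∃ x', p • x' = x) (hψk : ∀ y, ψ y = 0 ↔ ∃ y', p • y' = y)
    (hX : ∀ x : X, p • x = 0 → x = 0) (hY : ∀ y : Y, p • y = 0 → y = 0) :
    qHom G p M X = qHom G p M Y := by
  have key : ∀ (W : Type) [AddCommGroup W] [DistribMulAction G W] (χ : W →+[G] Z),
      Function.Surjective χ → (∀ w, χ w = 0 ↔ ∃ w', p • w' = w) →
      (∀ w : W, p • w = 0 → w = 0) → qHom G p M W = dlog p (homG G M Z) := by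
    intro W _ _ χ hχ hk hW
    let f : W ⧸ pSub p W →+[G] Z :=
      { toFun := QuotientAddGroup.lift (pSub p W) (χ : W →+ Z) fun w hw =>
          (hk w).2 (mem_pSub.1 hw)
        map_smul' := fun g w => by
          induction w using QuotientAddGroup.induction_on with
          | H a => exact map_smul χ g a
        map_zero' := map_zero _
        map_add' := map_add _ }
    have hf : Function.Bijective f := by
      refine ⟨(injective_iff_map_eq_zero _).2 fun w hw => ?_, fun z => ?_⟩
      · induction w using QuotientAddGroup.induction_on with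
        | H a => exact (QuotientAddGroup.eq_zero_iff _).2 (mem_pSub.2 ((hk a).1 hw))
      · obtain ⟨w, rfl⟩ := hχ z
        exact ⟨QuotientAddGroup.mk w, rfl⟩
    have : Subsingleton (pTor G p W) := ⟨fun a b => Subtype.ext
      ((hW _ (mem_kerOf.1 a.2)).trans (hW _ (mem_kerOf.1 b.2)).symm)⟩
    have : Subsingleton (homG G M (pTor G p W)) :=
      ⟨fun a b => Subtype.ext (CHom.ext' fun _ => Subsingleton.elim _ _)⟩
    rw [qHom, dlog_homG_congr f hf, dlog_of_subsingleton p (homG G M (pTor G p W)), sub_zero]
  rw [key X φ hφ hφk hX, key Y ψ hψ hψk hY]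

variable {H : Subgroup G} {U U' Z : Type} [AddCommGroup U] [DistribMulAction H U]
  [AddCommGroup U'] [DistribMulAction H U'] [AddCommGroup Z] [DistribMulAction H Z]

/-- Coinduced modules of modules with the same reduction. -/
theorem qHom_coind_eq_of_reduction (D : Subgroup G) (φ : U →+[H] Z) (ψ : U' →+[H] Z)
    (hφ : Function.Surjective φ) (hψ : Function.Surjective ψ)
    (hφk : ∀ x, φ x = 0 ↔ ∃ x', p • x' = x) (hψk : ∀ y, ψ y = 0 ↔ ∃ y', p • y' = y)
    (hX : ∀ x : U, p • x = 0 → x = 0) (hY : ∀ y : U', p • y = 0 → y = 0) :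
    qHom D p M (Coind H U) = qHom D p M (Coind H U') := by
  have kerlem : ∀ (W : Type) [AddCommGroup W] [DistribMulAction H W] (χ : W →+[H] Z),
      (∀ w, χ w = 0 ↔ ∃ w', p • w' = w) →
      ∀ F : Coind H W, coindMap χ F = 0 ↔ ∃ F', p • F' = F := by
    intro W _ _ χ hk F
    constructor
    · intro h
      choose v hv using fun q => (hk (coindEquiv F q)).1 (by rw [← coindEquiv_map, h, map_zero]; rfl)
      exact ⟨coindEquiv.symm v, coindEquiv.injective (funext fun q => by
        rw [coindEquiv_nsmul, AddEquiv.apply_symm_apply, hv])⟩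
    · rintro ⟨F', rfl⟩
      exact coindEquiv.injective (funext fun q => by
        rw [coindEquiv_map, coindEquiv_nsmul, map_zero, (hk _).2 ⟨_, rfl⟩]
        rfl)
  have tflem : ∀ (W : Type) [AddCommGroup W] [DistribMulAction H W],
      (∀ w : W, p • w = 0 → w = 0) → ∀ F : Coind H W, p • F = 0 → F = 0 := fun W _ _ hW F h =>
    coindEquiv.injective (funext fun q => by
      rw [map_zero]
      exact hW _ (by rw [← coindEquiv_nsmul, h, map_zero]; rfl))
  exact qHom_eq_of_reduction (restrictHom D (coindMap φ)) (restrictHom D (coindMap ψ))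
    (coindMap_surjective hφ) (coindMap_surjective hψ) (kerlem U φ hφk) (kerlem U' ψ hψk)
    (tflem U hX) (tflem U' hY)

variable [Finite G] [Finite M]

/-- An isogeny does not change `qHom` of the coinduced module. -/
theorem qHom_coind_isogeny (hM : ∀ x : M, p • x = 0) (D : Subgroup G) (hD : ¬ p ∣ Nat.card D)
    (hU : PFinite p U) (f : U →+[H] U') (hker : Finite (kerOf f))
    (hcoker : Finite (U' ⧸ (f : U →+ U').range)) :
    PFinite p (Coind H U') ∧ qHom D p M (Coind H U') = qHom D p M (Coind H U) :=
  qHom_of_isogeny hD hM (pFinite_coind hU) (restrictHom D (coindMap f))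
    (coindMap_finite_ker f hker) (coindMap_finite_coker f hcoker)

/-- Multiplication by `p` bijective on `U`. -/
theorem qHom_coind_of_bijective (hM : ∀ x : M, p • x = 0) (D : Subgroup G)
    (hD : ¬ p ∣ Nat.card D) (hU : Function.Bijective (fun x : U => p • x)) :
    qHom D p M (Coind H U) = 0 :=
  qHom_of_bijective_pMul hD hM ⟨fun F F' h => coindEquiv.injective (funext fun q => hU.1 (by
    show p • coindEquiv F q = p • coindEquiv F' q
    rw [← coindEquiv_nsmul, ← coindEquiv_nsmul]
    exact congrArg (fun z => coindEquiv z q) h)),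
    fun F => by
      choose v hv using fun q => hU.2 (coindEquiv F q)
      exact ⟨coindEquiv.symm v, coindEquiv.injective (funext fun q => by
        show coindEquiv (p • coindEquiv.symm v) q = _
        rw [coindEquiv_nsmul, AddEquiv.apply_symm_apply]
        exact hv q)⟩⟩

variable (H)

/-- `Ind G B` is coinduced from `Ind H B`. -/
def indCoind (B : Type) [AddCommGroup B] : Ind G B →+[G] Coind H (Ind H B) where
  toFun f := ⟨fun g => ⟨fun h => f.val (g⁻¹ * h)⟩, fun h₀ g => Ind.ext (funext fun h => by
    show f.val (((h₀ : G) * g)⁻¹ * h) = f.val (g⁻¹ * ((h₀⁻¹ * h : H) : G))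
    simp [mul_assoc])⟩
  map_smul' g₀ f := Subtype.ext (funext fun g => Ind.ext (funext fun h => by
    show f.val (g₀⁻¹ * (g⁻¹ * h)) = f.val ((g * g₀)⁻¹ * h)
    rw [mul_inv_rev, mul_assoc]))
  map_zero' := rfl
  map_add' _ _ := rfl

theorem indCoind_bijective (B : Type) [AddCommGroup B] : Function.Bijective (indCoind H B) := by
  refine ⟨fun f f' h => Ind.ext (funext fun g => ?_), fun F =>
    ⟨⟨fun g => (F.1 g⁻¹).val 1⟩, Subtype.ext (funext fun g => Ind.ext (funext fun h => ?_))⟩⟩
  · have h' : f.val (g⁻¹⁻¹ * ((1 : H) : G)) = f'.val (g⁻¹⁻¹ * ((1 : H) : G)) :=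
      congrArg (fun F : Coind H (Ind H B) => (F.1 g⁻¹).val 1) h
    simpa using h'
  · show (F.1 (g⁻¹ * h)⁻¹).val 1 = (F.1 g).val h
    rw [mul_inv_rev, inv_inv, ← Subgroup.coe_inv, F.2]
    show (F.1 g).val (h⁻¹⁻¹ * 1) = (F.1 g).val h
    rw [inv_inv, mul_one]

/-- `qHom` of `ℤ_p[G]`. -/
theorem qHom_indPadic (D : Subgroup G) :
    qHom D p M (Ind G ℤ_[p]) = qHom D p M (Ind G ℤ) := by
  let c : Ind G ℤ →+[G] Ind G ℤ_[p] :=
    { toFun := fun f => ⟨fun τ => (f.val τ : ℤ_[p])⟩
      map_smul' := fun _ _ => rfl
      map_zero' := Ind.ext (funext fun τ => Int.cast_zero)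
      map_add' := fun _ _ => Ind.ext (funext fun τ => Int.cast_add _ _) }
  have hp0 : (p : ℤ_[p]) ≠ 0 := Nat.cast_ne_zero.2 (Fact.out : p.Prime).ne_zero
  have hred : ∀ x : ℤ_[p], ∃ (n : ℤ) (z : ℤ_[p]), x = n + p • z := fun x => by
    have h : x - ((PadicInt.toZMod x).val : ℤ_[p]) ∈ RingHom.ker (PadicInt.toZMod (p := p)) := by
      rw [RingHom.mem_ker, map_sub, map_natCast, ZMod.natCast_zmod_val, sub_self]
    rw [PadicInt.ker_toZMod, PadicInt.maximalIdeal_eq_span_p, Ideal.mem_span_singleton] at h
    obtain ⟨z, hz⟩ := h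
    exact ⟨((PadicInt.toZMod x).val : ℕ), z, by
      rw [Int.cast_natCast, nsmul_eq_mul, ← hz, add_sub_cancel]⟩
  refine (qHom_eq_of_map (restrictHom D c) (fun y => ?_) (fun x z h => ?_) (fun y hy => ⟨0,
    smul_zero _, ?_⟩) fun x hx _ => ?_).symm
  · choose n z hz using fun τ => hred (y.val τ)
    exact ⟨⟨n⟩, ⟨z⟩, Ind.ext (funext fun τ => by rw [hz τ, Ind.add_apply, Ind.nsmul_apply]; rfl)⟩
  · have hd : ∀ τ, (p : ℤ) ∣ x.val τ := fun τ => by
      have e : ((x.val τ : ℤ) : ℤ_[p]) = p • z.val τ := by
        rw [← Ind.nsmul_apply]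
        exact congrArg (fun w : Ind G ℤ_[p] => w.val τ) h
      have := congrArg (PadicInt.toZMod (p := p)) e
      rw [map_intCast, map_nsmul, ZModModule.char_nsmul_eq_zero] at this
      exact (ZMod.intCast_zmod_eq_zero_iff_dvd _ p).1 this
    choose w hw using hd
    exact ⟨⟨w⟩, Ind.ext (funext fun τ => by rw [Ind.nsmul_apply, hw τ, nsmul_eq_mul])⟩
  · refine Ind.ext (funext fun τ => ?_)
    have := congrArg (fun w : Ind G ℤ_[p] => w.val τ) hy
    simp only [Ind.nsmul_apply, Ind.zero_apply, nsmul_eq_mul, mul_eq_zero, hp0, false_or] at this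
    rw [map_zero]
    exact this.symm
  · refine Ind.ext (funext fun τ => ?_)
    have := congrArg (fun w : Ind G ℤ => w.val τ) hx
    simp only [Ind.nsmul_apply, Ind.zero_apply, nsmul_eq_mul, mul_eq_zero] at this
    exact this.resolve_left (by exact_mod_cast (Fact.out : p.Prime).ne_zero)


/-- `qHom` of the coinduced module of `ℤ_p[H]`. -/
theorem qHom_coind_indPadic (D : Subgroup G) (hM : ∀ x : M, p • x = 0) (hD : ¬ p ∣ Nat.card D) :
    qHom D p M (Coind H (Ind H ℤ_[p])) = qHom D p M (Ind G ℤ) := by
  rw [← qHom_congr hD hM (restrictHom D (indCoind H ℤ_[p])) (indCoind_bijective H ℤ_[p]),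
    qHom_indPadic]

end QHom

end Fermat.Agent.ClassField.GW

end
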