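import Fermat.Agent.ClassField.GW.Values.Basic
import Fermat.Agent.ClassField.GW.Level
import Fermat.Agent.ClassField.GW.QHomRank
import Fermat.Agent.ClassField.Idele.Fundamental.LevelModule
import Fermat.Prelude.Def_GaloisRep_ComplexConjugation

/-!
# Greenberg–Wiles: the units of a Galois number field as a Galois module

The units are finitely generated and, with an additional trivial `ℤ`, have the ranks of invariants
of `ℤ[G/⟨c⟩]`: the infinite places of `K^D` are the `D`-orbits on the complex places of `K`.
-/

set_option autoImplicit false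

noncomputable section

open scoped NumberField Fermat.Agent.ClassField
open IntermediateField

namespace Fermat.Agent.ClassField.GW

open S55 Idele Idele.Herbrand

local notation "Qb" => AlgebraicClosure ℚ
local notation "Γ" => (AlgebraicClosure ℚ ≃ₐ[ℚ] AlgebraicClosure ℚ)

/-- `finrank` of a product of finitely generated abelian groups (no freeness). -/
theorem finrank_prod_int (A B : Type*) [AddCommGroup A] [AddCommGroup B] [Module.Finite ℤ A]
    [Module.Finite ℤ B] :
    Module.finrank ℤ (A × B) = Module.finrank ℤ A + Module.finrank ℤ B := by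
  rw [← Submodule.finrank_quotient_add_finrank (LinearMap.ker (LinearMap.snd ℤ A B)),
    (LinearMap.quotKerEquivOfSurjective _ Prod.snd_surjective).finrank_eq, add_comm,
    LinearMap.ker_snd, LinearMap.finrank_range_of_inj LinearMap.inl_injective]

/-! ### units of a number field -/

section Units

variable (F : IntermediateField ℚ Qb)

/-- The units of a number field inside `ℚ̄ˣ`. -/
def levelUnitsEquiv :
    levelUnits F (∅ : Finset Nat.Primes) ≃+ Additive (tUnits (∅ : Set Nat.Primes) F) where
  toFun x := Additive.ofMul ⟨Units.mk0 ⟨_, x.2.1⟩ fun h =>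
      (x : Additive Qbˣ).toMul.ne_zero (congrArg Subtype.val h),
    fun ℓ _ ι => x.2.2 ℓ (Finset.notMem_empty ℓ) ι⟩
  invFun y := ⟨Additive.ofMul (inclUnits F (y.toMul : Fˣ)), ((y.toMul : Fˣ) : F).2,
    fun ℓ _ ι => y.toMul.2 ℓ (Set.notMem_empty ℓ) ι⟩
  left_inv x := Subtype.ext (Additive.toMul.injective (Units.ext rfl))
  right_inv y := Additive.toMul.injective (Subtype.ext (Units.ext rfl))
  map_add' x y := Additive.toMul.injective (Subtype.ext (Units.ext rfl))

variable [FiniteDimensional ℚ F]

theorem moduleFinite_levelUnits : Module.Finite ℤ (levelUnits F (∅ : Finset Nat.Primes)) :=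
  haveI := finite_tUnits (T := (∅ : Set Nat.Primes)) (K := F) Set.finite_empty
  Module.Finite.equiv (levelUnitsEquiv F).toIntLinearEquiv.symm

/-- Dirichlet. -/
theorem finrank_levelUnits :
    Module.finrank ℤ (levelUnits F (∅ : Finset Nat.Primes)) + 1 =
      Nat.card (NumberField.InfinitePlace F) := by
  have h0 : (Herbrand.placesOver (∅ : Set Nat.Primes) F).ncard = 0 := by
    simp [Herbrand.placesOver]
  rw [(levelUnitsEquiv F).toIntLinearEquiv.finrank_eq, finrank_tUnits Set.finite_empty, h0,
    add_zero, NumberField.Units.rank, ← Nat.card_eq_fintype_card]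
  have : 0 < Nat.card (NumberField.InfinitePlace F) := Nat.card_pos
  omega

end Units

/-! ### embeddings -/

section Embeddings

variable (F : IntermediateField ℚ Qb)

/-- The embedding `e ∘ σ⁻¹` of a subfield of `ℚ̄`. -/
def sigmaEmbedding (σ : Γ) : F →+* ℂ :=
  (complexEmbedding.comp ((σ⁻¹ : Γ).toAlgHom.comp F.val)).toRingHom

theorem sigmaEmbedding_apply (σ : Γ) (x : F) :
    sigmaEmbedding F σ x = complexEmbedding ((σ⁻¹ : Γ) (x : Qb)) := rfl

theorem conjugate_sigmaEmbedding (σ : Γ) :
    NumberField.ComplexEmbedding.conjugate (sigmaEmbedding F σ) =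
      sigmaEmbedding F (σ * complexConjugation) := by
  refine RingHom.ext fun x => ?_
  rw [NumberField.ComplexEmbedding.conjugate_coe_eq, sigmaEmbedding_apply, sigmaEmbedding_apply,
    ← complexEmbedding_complexConjugation, mul_inv_rev, complexConjugation_inv]
  rfl

theorem sigmaEmbedding_eq_iff (σ τ : Γ) :
    sigmaEmbedding F σ = sigmaEmbedding F τ ↔ τ * σ⁻¹ ∈ F.fixingSubgroup := by
  rw [IntermediateField.mem_fixingSubgroup_iff]
  constructor
  · intro h x hx
    have h1 : (σ⁻¹ : Γ) x = (τ⁻¹ : Γ) x :=
      complexEmbedding.toRingHom.injective (RingHom.congr_fun h ⟨x, hx⟩)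
    rw [AlgEquiv.mul_apply, h1, ← AlgEquiv.mul_apply, mul_inv_cancel, AlgEquiv.one_apply]
  · intro h
    refine RingHom.ext fun x => ?_
    rw [sigmaEmbedding_apply, sigmaEmbedding_apply]
    conv_rhs => rw [← h x x.2]
    rw [AlgEquiv.mul_apply, ← AlgEquiv.mul_apply τ⁻¹, inv_mul_cancel, AlgEquiv.one_apply]

theorem exists_sigmaEmbedding [FiniteDimensional ℚ F] (φ : F →+* ℂ) :
    ∃ σ : Γ, sigmaEmbedding F σ = φ := by
  let f : (F →ₐ[ℚ] Qb) → (F →ₐ[ℚ] ℂ) := fun ψ => complexEmbedding.comp ψ
  have hf : Function.Bijective f := by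
    refine (Fintype.bijective_iff_injective_and_card f).2 ⟨fun a b h => AlgHom.ext fun x => ?_, ?_⟩
    · exact complexEmbedding.toRingHom.injective (AlgHom.congr_fun h x)
    · rw [AlgHom.card, AlgHom.card]
  obtain ⟨ψ, hψ⟩ := hf.2 φ.toRatAlgHom
  let σ : Γ := AlgEquiv.ofBijective (ψ.liftNormal Qb)
    (AlgHom.normal_bijective ℚ Qb Qb (ψ.liftNormal Qb))
  refine ⟨σ⁻¹, RingHom.ext fun x => ?_⟩
  rw [sigmaEmbedding_apply, inv_inv]
  refine Eq.trans ?_ (AlgHom.congr_fun hψ x)
  exact congrArg complexEmbedding (ψ.liftNormal_commutes Qb x)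

end Embeddings

variable (K : IntermediateField ℚ Qb) [Normal ℚ K] [FiniteDimensional ℚ K]

/-- The decomposition group of an infinite place. -/
abbrev infDec : Subgroup (LevelGroup K) := Subgroup.zpowers (toLevel K complexConjugation)

omit [FiniteDimensional ℚ K] in
theorem toLevel_complexConjugation_mul_self :
    toLevel K complexConjugation * toLevel K complexConjugation = 1 := by
  rw [← map_mul, complexConjugation_mul_self, map_one]

omit [FiniteDimensional ℚ K] in
theorem mem_infDec_iff (g : LevelGroup K) :
    g ∈ infDec K ↔ g = 1 ∨ g = toLevel K complexConjugation := by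
  constructor
  · rintro ⟨n, rfl⟩
    have h2 : toLevel K complexConjugation ^ (2 : ℤ) = 1 := by
      rw [zpow_two, toLevel_complexConjugation_mul_self]
    rcases Int.even_or_odd' n with ⟨m, rfl | rfl⟩
    · exact Or.inl (by beta_reduce; rw [zpow_mul, h2, one_zpow])
    · exact Or.inr (by beta_reduce; rw [zpow_add, zpow_mul, h2, one_zpow, one_mul, zpow_one])
  · rintro (rfl | rfl)
    · exact one_mem _
    · exact Subgroup.mem_zpowers _

omit [FiniteDimensional ℚ K] in
theorem card_infDec_dvd_two : Nat.card (infDec K) ∣ 2 := by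
  rw [Nat.card_zpowers]
  exact orderOf_dvd_of_pow_eq_one (by rw [pow_two, toLevel_complexConjugation_mul_self])

omit [Normal ℚ K] in
theorem moduleFinite_units : Module.Finite ℤ (levelUnits K (∅ : Finset Nat.Primes)) :=
  moduleFinite_levelUnits K

theorem moduleFinite_permZ : Module.Finite ℤ (PermZ (infDec K)) :=
  Module.Finite.equiv (AddEquiv.toIntLinearEquiv
    ({ toFun := fun f => ⟨fun y => ⟨f y⟩⟩
       invFun := fun f y => (f.val y).val
       left_inv := fun _ => rfl
       right_inv := fun _ => rfl
       map_add' := fun _ _ => rfl } : (LevelGroup K ⧸ infDec K → ℤ) ≃+ PermZ (infDec K)))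

/-! ### invariants -/

section Fixed

variable (D : Subgroup (LevelGroup K))

/-- The fixed field of a subgroup of the level group. -/
def levelFixedField : IntermediateField ℚ Qb := fixedField (D.comap (toLevel K))

omit [FiniteDimensional ℚ K] in
theorem fixingSubgroup_le_comap : K.fixingSubgroup ≤ D.comap (toLevel K) := fun σ hσ => by
  rw [Subgroup.mem_comap, show toLevel K σ = 1 from (QuotientGroup.eq_one_iff σ).mpr hσ]
  exact one_mem D

theorem mem_fixingSubgroup_levelFixedField (σ : Γ) :
    σ ∈ (levelFixedField K D).fixingSubgroup ↔ toLevel K σ ∈ D := by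
  rw [levelFixedField, fixingSubgroup_fixedField_of_le (fixingSubgroup_le_comap K D),
    Subgroup.mem_comap]

instance finiteDimensional_levelFixedField : FiniteDimensional ℚ (levelFixedField K D) :=
  finiteDimensional_fixedField_of_le (fixingSubgroup_le_comap K D)

/-- The invariant units are the units of the fixed field. -/
def fixedUnitsEquiv : fixedSub D (levelUnits K (∅ : Finset Nat.Primes)) ≃+
    levelUnits (levelFixedField K D) (∅ : Finset Nat.Primes) where
  toFun x := ⟨x.1.1, mem_of_forall_fixingSubgroup _ fun σ hσ => by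
      have h := x.2 ⟨toLevel K σ, (mem_fixingSubgroup_levelFixedField K D σ).mp hσ⟩
      exact congrArg (fun z : Additive Qbˣ => ((z.toMul : Qbˣ) : Qb)) (congrArg Subtype.val h),
    x.1.2.2⟩
  invFun y := ⟨⟨y.1, fixedField_le_of_le (fixingSubgroup_le_comap K D) y.2.1, y.2.2⟩, fun d => by
    obtain ⟨σ, hσ⟩ := QuotientGroup.mk'_surjective K.fixingSubgroup (d : LevelGroup K)
    refine Subtype.ext (Additive.toMul.injective (Units.ext ?_))
    show ((((d : LevelGroup K) • (⟨y.1, fixedField_le_of_le (fixingSubgroup_le_comap K D) y.2.1,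
      y.2.2⟩ : levelUnits K (∅ : Finset Nat.Primes)) :
        levelUnits K (∅ : Finset Nat.Primes)) : Additive Qbˣ).toMul : Qb) = _
    rw [← hσ]
    exact (IntermediateField.mem_fixingSubgroup_iff _ _).mp
      ((mem_fixingSubgroup_levelFixedField K D σ).mpr
        (show toLevel K σ ∈ D from hσ.symm ▸ d.2)) _ y.2.1⟩
  left_inv x := rfl
  right_inv y := rfl
  map_add' x y := rfl

/-- The fixed functions are the functions on orbits. -/
def fixedPermEquiv :
    fixedSub D (PermZ (infDec K)) ≃+
      (MulAction.orbitRel.Quotient D (LevelGroup K ⧸ infDec K) → ℤ) where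
  toFun f := Quotient.lift (fun y => (f.1.val y).val) fun a b ⟨d, hd⟩ => by
    subst hd
    have h := congrArg (fun u : PermZ (infDec K) => (u.val (d • b)).val) (f.2 d)
    change (f.1.val (((d : LevelGroup K))⁻¹ • ((d : LevelGroup K) • b))).val =
      (f.1.val (d • b)).val at h
    rw [inv_smul_smul] at h
    exact h.symm
  invFun φ := ⟨⟨fun y => ⟨φ (Quotient.mk _ y)⟩⟩, fun d =>
    PermMod.ext (funext fun y => TrivZ.ext (congrArg φ (Quotient.sound ⟨d⁻¹, rfl⟩)))⟩
  left_inv f := rfl
  right_inv φ := funext fun q => Quotient.inductionOn q fun _ => rfl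
  map_add' f g := funext fun q => Quotient.inductionOn q fun _ => rfl

/-- The infinite places of the fixed field are the orbits on `G/⟨c⟩`. -/
theorem card_infinitePlace_levelFixedField :
    Nat.card (NumberField.InfinitePlace (levelFixedField K D)) =
      Nat.card (MulAction.orbitRel.Quotient D (LevelGroup K ⧸ infDec K)) := by
  let a : Γ → MulAction.orbitRel.Quotient D (LevelGroup K ⧸ infDec K) := fun σ =>
    Quotient.mk _ (QuotientGroup.mk (toLevel K σ))
  let b : Γ → NumberField.InfinitePlace (levelFixedField K D) := fun σ =>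
    NumberField.InfinitePlace.mk (sigmaEmbedding (levelFixedField K D) σ)
  have ha : Function.Surjective a := fun q => by
    induction q using Quotient.inductionOn with
    | h y =>
      induction y using QuotientGroup.induction_on with
      | H g =>
        obtain ⟨σ, rfl⟩ := QuotientGroup.mk'_surjective K.fixingSubgroup g
        exact ⟨σ, rfl⟩
  have hb : Function.Surjective b := fun w => by
    obtain ⟨σ, hσ⟩ := exists_sigmaEmbedding (levelFixedField K D) w.embedding
    refine ⟨σ, ?_⟩
    show NumberField.InfinitePlace.mk _ = w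
    rw [hσ, NumberField.InfinitePlace.mk_embedding]
  have key : ∀ σ τ : Γ, a σ = a τ ↔ b σ = b τ := by
    intro σ τ
    rw [NumberField.InfinitePlace.mk_eq_iff, conjugate_sigmaEmbedding, sigmaEmbedding_eq_iff,
      sigmaEmbedding_eq_iff, mem_fixingSubgroup_levelFixedField,
      mem_fixingSubgroup_levelFixedField, map_mul, map_mul, map_inv, map_inv, map_mul]
    constructor
    · intro h
      obtain ⟨d, hd⟩ := Quotient.exact h
      change ((((d : LevelGroup K) * toLevel K τ : LevelGroup K)) : LevelGroup K ⧸ infDec K) =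
        (toLevel K σ : LevelGroup K ⧸ infDec K) at hd
      rcases (mem_infDec_iff K _).mp (QuotientGroup.eq.mp hd) with e | e
      · left
        rw [inv_mul_eq_one] at e
        rw [← e, mul_inv_rev, mul_inv_cancel_left]
        exact inv_mem d.2
      · right
        rw [inv_mul_eq_iff_eq_mul] at e
        have e' : toLevel K σ * toLevel K complexConjugation = (d : LevelGroup K) * toLevel K τ := by
          rw [e, mul_assoc _ (toLevel K complexConjugation),
            toLevel_complexConjugation_mul_self, mul_one]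
        rw [e', mul_inv_rev, mul_inv_cancel_left]
        exact inv_mem d.2
    · intro h
      refine Quotient.sound ?_
      rcases h with h | h
      · refine ⟨⟨_, h⟩⁻¹, ?_⟩
        change (((toLevel K τ * (toLevel K σ)⁻¹)⁻¹ * toLevel K τ : LevelGroup K) :
          LevelGroup K ⧸ infDec K) = (toLevel K σ : LevelGroup K ⧸ infDec K)
        refine QuotientGroup.eq.mpr ((mem_infDec_iff K _).mpr (Or.inl ?_))
        group
      · refine ⟨⟨_, h⟩⁻¹, ?_⟩
        change (((toLevel K τ * (toLevel K σ * toLevel K complexConjugation)⁻¹)⁻¹ * toLevel K τ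
          : LevelGroup K) : LevelGroup K ⧸ infDec K) = (toLevel K σ : LevelGroup K ⧸ infDec K)
        refine QuotientGroup.eq.mpr ((mem_infDec_iff K _).mpr (Or.inr ?_))
        rw [inv_mul_eq_iff_eq_mul]
        have hc := toLevel_complexConjugation_mul_self K
        rw [mul_eq_one_iff_inv_eq] at hc
        rw [mul_inv_rev, mul_inv_rev, hc]
        group
  refine Nat.card_congr ((Setoid.quotientKerEquivOfSurjective b hb).symm.trans
    ((Quotient.congr (Equiv.refl Γ) fun σ τ => ?_).trans
      (Setoid.quotientKerEquivOfSurjective a ha)))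
  exact (key σ τ).symm

theorem finrank_fixed_units :
    Module.finrank ℤ (fixedSub D (levelUnits K (∅ : Finset Nat.Primes))) +
        Module.finrank ℤ (fixedSub D TrivZ) =
      Module.finrank ℤ (fixedSub D (PermZ (infDec K))) := by
  classical
  have := Fintype.ofFinite (MulAction.orbitRel.Quotient D (LevelGroup K ⧸ infDec K))
  let e : fixedSub D TrivZ ≃+ ℤ :=
    { toFun := fun x => x.1.val
      invFun := fun n => ⟨⟨n⟩, fun _ => rfl⟩
      left_inv := fun _ => rfl
      right_inv := fun _ => rfl
      map_add' := fun _ _ => rfl }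
  rw [(fixedUnitsEquiv K D).toIntLinearEquiv.finrank_eq, e.toIntLinearEquiv.finrank_eq,
    Module.finrank_self, finrank_levelUnits, (fixedPermEquiv K D).toIntLinearEquiv.finrank_eq,
    Module.finrank_fintype_fun_eq_card, card_infinitePlace_levelFixedField,
    Nat.card_eq_fintype_card]

end Fixed

/-! ### `qHom` -/

theorem qHom_units (p : ℕ) [Fact p.Prime] {M : Type} [AddCommGroup M]
    [DistribMulAction (LevelGroup K) M] [Finite M] (hM : ∀ x : M, p • x = 0)
    (D : Subgroup (LevelGroup K)) [IsCyclic D] (hD : ¬ p ∣ Nat.card D) :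
    qHom D p M (levelUnits K (∅ : Finset Nat.Primes)) + qHom D p M TrivZ =
      qHom D p M (PermZ (infDec K)) := by
  have := moduleFinite_units K
  have := moduleFinite_permZ K
  have : Module.Finite ℤ TrivZ := Module.Finite.equiv TrivZ.valEquiv.toIntLinearEquiv.symm
  let U := levelUnits K (∅ : Finset Nat.Primes)
  let i : U →+[D] U × TrivZ :=
    { toFun := fun x => (x, 0)
      map_smul' := fun d x => Prod.ext rfl (smul_zero d).symm
      map_zero' := rfl
      map_add' := fun x y => Prod.ext rfl (add_zero _).symm }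
  let j : U × TrivZ →+[D] TrivZ :=
    { toFun := Prod.snd
      map_smul' := fun _ _ => rfl
      map_zero' := rfl
      map_add' := fun _ _ => rfl }
  have h := (qHom_add hD hM (pFinite_of_moduleFinite U) (pFinite_of_moduleFinite TrivZ) i j
    (fun a b h => congrArg Prod.fst h) (fun z => ⟨(0, z), rfl⟩)
    fun y => ⟨fun hy => ⟨y.1, Prod.ext rfl hy.symm⟩, by rintro ⟨x, rfl⟩; rfl⟩).2
  rw [← h]
  refine qHom_eq_of_finrank_fixed hD hM fun D' => ?_
  have key := finrank_fixed_units K (D'.map D.subtype)
  let eP : fixedSub D' (U × TrivZ) ≃+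
      fixedSub (D'.map D.subtype) U × fixedSub (D'.map D.subtype) TrivZ :=
    { toFun := fun x => (⟨x.1.1, fun ⟨g, d, hd, hg⟩ => by
          subst hg
          exact congrArg Prod.fst (x.2 ⟨d, hd⟩)⟩, ⟨x.1.2, fun _ => rfl⟩)
      invFun := fun y => ⟨(y.1.1, y.2.1), fun d =>
        Prod.ext (y.1.2 ⟨_, Subgroup.mem_map_of_mem D.subtype d.2⟩) rfl⟩
      left_inv := fun _ => rfl
      right_inv := fun _ => rfl
      map_add' := fun _ _ => rfl }
  let eQ : fixedSub D' (PermZ (infDec K)) ≃+
      fixedSub (D'.map D.subtype) (PermZ (infDec K)) :=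
    { toFun := fun x => ⟨x.1, fun ⟨g, d, hd, hg⟩ => by
          subst hg
          exact x.2 ⟨d, hd⟩⟩
      invFun := fun y => ⟨y.1, fun d => y.2 ⟨_, Subgroup.mem_map_of_mem D.subtype d.2⟩⟩
      left_inv := fun _ => rfl
      right_inv := fun _ => rfl
      map_add' := fun _ _ => rfl }
  rw [eP.toIntLinearEquiv.finrank_eq, eQ.toIntLinearEquiv.finrank_eq, ← key]
  have : Module.Finite ℤ (fixedSub (D'.map D.subtype) U) :=
    Module.Finite.of_injective ((fixedSub (D'.map D.subtype) U).subtype.toIntLinearMap)
      Subtype.val_injective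
  have : Module.Finite ℤ (fixedSub (D'.map D.subtype) TrivZ) :=
    Module.Finite.of_injective ((fixedSub (D'.map D.subtype) TrivZ).subtype.toIntLinearMap)
      Subtype.val_injective
  exact finrank_prod_int _ _

end Fermat.Agent.ClassField.GW

end
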