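import Fermat.Agent.ClassField.GW.Values.LocalUnits
import Fermat.Agent.ClassField.GW.Values.Units
import Fermat.Agent.ClassField.Idele.LocalHerbrand

/-!
# Greenberg–Wiles: the Euler characteristic of the classes of a level

The units of the places over `T` map to the classes with the global units as kernel and finite
cokernel, so `qHom_D` of the classes is `qHom_D ℤ[G] + qHom_D ℤ - qHom_D ℤ[G/⟨c⟩]`.
-/

set_option autoImplicit false

noncomputable section

open scoped NumberField Fermat.Agent.ClassField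
open IntermediateField IsDedekindDomain

namespace Fermat.Agent.ClassField.GW

open S55 Idele Idele.Herbrand

local notation "Qb" => AlgebraicClosure ℚ

section Algebra

variable {p : ℕ} [Fact p.Prime] {H : Type} [Group H] [Finite H] (hH : ¬ p ∣ Nat.card H)
variable {M : Type} [AddCommGroup M] [DistribMulAction H M] [Finite M] (hM : ∀ x : M, p • x = 0)
include hH hM

/-- `A → B → C` exact with `A → B` injective and finite cokernel. -/
theorem qHom_of_exact_finite {A B C : Type} [AddCommGroup A] [DistribMulAction H A]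
    [AddCommGroup B] [DistribMulAction H B] [AddCommGroup C] [DistribMulAction H C]
    (hA : PFinite p A) (hB : PFinite p B) (κ : A →+[H] B) (f : B →+[H] C)
    (hκ : Function.Injective κ) (hex : ∀ b, f b = 0 ↔ ∃ a, κ a = b)
    (hcok : Finite (C ⧸ (f : B →+ C).range)) :
    PFinite p C ∧ qHom H p M B = qHom H p M A + qHom H p M C := by
  classical
  let I : AddSubgroup C := (f : B →+ C).range
  have hI : ∀ (g : H) (y : C), y ∈ I → g • y ∈ I := by
    rintro g _ ⟨x, rfl⟩
    exact ⟨g • x, map_smul f g x⟩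
  let _ : DistribMulAction H I :=
    { smul := fun g y => ⟨g • (y : C), hI g y y.2⟩
      one_smul := fun y => Subtype.ext (one_smul H (y : C))
      mul_smul := fun g h y => Subtype.ext (mul_smul g h (y : C))
      smul_zero := fun g => Subtype.ext (smul_zero g)
      smul_add := fun g y z => Subtype.ext (smul_add g (y : C) (z : C)) }
  let j : B →+[H] I :=
    { toFun := fun b => ⟨f b, b, rfl⟩
      map_smul' := fun g b => Subtype.ext (map_smul f g b)
      map_zero' := Subtype.ext (map_zero f)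
      map_add' := fun a b => Subtype.ext (map_add f a b) }
  let incl : I →+[H] C :=
    { toFun := fun y => y, map_smul' := fun _ _ => rfl, map_zero' := rfl,
      map_add' := fun _ _ => rfl }
  have hj : Function.Surjective j := fun y => by
    obtain ⟨b, hb⟩ := y.2
    exact ⟨b, Subtype.ext hb⟩
  have hjex : ∀ b, j b = 0 ↔ ∃ a, κ a = b := fun b =>
    ⟨fun h => (hex b).1 (congrArg Subtype.val h), fun h => Subtype.ext ((hex b).2 h)⟩
  have hIf : PFinite p I := by
    have := hA.quot
    have := hB.quot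
    have := hB.tors
    refine ⟨Finite.of_surjective (QuotientAddGroup.map (pSub p B) (pSub p I) (j : B →+ I)
      fun b hb => ?_) fun y => ?_, ?_⟩
    · obtain ⟨b', rfl⟩ := mem_pSub.1 hb
      exact mem_pSub.2 ⟨j b', (map_nsmul j p b').symm⟩
    · induction y using QuotientAddGroup.induction_on with
      | H z =>
        obtain ⟨b, rfl⟩ := hj z
        exact ⟨QuotientAddGroup.mk b, rfl⟩
    · choose u hu using fun z : {z : I // p • z = 0} => hj z.1
      have hx : ∀ z, ∃ a, κ a = p • u z := fun z => (hjex _).1 (by rw [map_nsmul, hu]; exact z.2)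
      choose a ha using hx
      let c : {z : I // p • z = 0} → A ⧸ pSub p A := fun z => QuotientAddGroup.mk (a z)
      choose r hr using fun k : Set.range c => k.2
      refine Finite.of_surjective (fun w : Option (Set.range c × {b : B // p • b = 0}) =>
        (w.elim ⟨0, smul_zero p⟩ fun w => ⟨(r w.1).1 + j w.2.1, by
          rw [nsmul_add, (r w.1).2, ← map_nsmul, w.2.2, map_zero, add_zero]⟩ :
          {z : I // p • z = 0})) fun z => ?_
      have hm := QuotientAddGroup.eq.1 (hr ⟨c z, z, rfl⟩)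
      obtain ⟨d, hd⟩ := mem_pSub.1 hm
      refine ⟨some (⟨c z, z, rfl⟩, ⟨u z - u (r ⟨c z, z, rfl⟩) - κ d, ?_⟩), Subtype.ext ?_⟩
      · rw [nsmul_sub, nsmul_sub, ← ha, ← ha, ← map_nsmul, hd, map_add, map_neg]
        abel
      · show (r ⟨c z, z, rfl⟩).1 + j (u z - u (r ⟨c z, z, rfl⟩) - κ d) = z.1
        rw [map_sub, map_sub, (hjex (κ d)).2 ⟨d, rfl⟩, hu, hu]
        abel
  have hker : Finite (kerOf incl) :=
    have : Subsingleton (kerOf incl) := ⟨fun a b => Subtype.ext (Subtype.ext
      ((mem_kerOf.1 a.2).trans (mem_kerOf.1 b.2).symm))⟩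
    inferInstance
  have hcok' : Finite (C ⧸ (incl : I →+ C).range) := by
    rw [show (incl : I →+ C).range = I from
      AddSubgroup.ext fun y => ⟨fun ⟨z, hz⟩ => hz ▸ z.2, fun h => ⟨⟨y, h⟩, rfl⟩⟩]
    exact hcok
  obtain ⟨hC, e⟩ := qHom_of_isogeny hH hM hIf incl hker hcok'
  exact ⟨hC, by rw [e, (qHom_add hH hM hA hIf κ j hκ hj hjex).2]⟩

theorem qHom_pi {ι : Type} (X : ι → Type) [∀ i, AddCommGroup (X i)]
    [∀ i, DistribMulAction H (X i)] (hX : ∀ i, PFinite p (X i)) (s : Finset ι) :
    PFinite p (∀ i : s, X i) ∧ qHom H p M (∀ i : s, X i) = ∑ i ∈ s, qHom H p M (X i) := by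
  classical
  induction s using Finset.induction_on with
  | empty =>
    have : Finite (∀ i : (∅ : Finset ι), X i) :=
      have : IsEmpty (∅ : Finset ι) := ⟨fun i => absurd i.2 (Finset.notMem_empty _)⟩
      inferInstance
    exact ⟨pFinite_of_finite, by rw [qHom_of_finite hH hM, Finset.sum_empty]⟩
  | insert a s ha ih =>
    let sc : X a →+[H] (∀ i : (insert a s : Finset ι), X i) :=
      { toFun := fun x => Pi.single (⟨a, Finset.mem_insert_self a s⟩ : (insert a s : Finset ι)) x
        map_smul' := fun g x => funext fun i => by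
          rcases eq_or_ne i ⟨a, Finset.mem_insert_self a s⟩ with rfl | hne
          · simp
          · simp [Pi.single_eq_of_ne hne]
        map_zero' := Pi.single_zero _
        map_add' := fun x y => funext fun i => by
          rcases eq_or_ne i ⟨a, Finset.mem_insert_self a s⟩ with rfl | hne
          · simp
          · simp [Pi.single_eq_of_ne hne] }
    let res : (∀ i : (insert a s : Finset ι), X i) →+[H] (∀ i : s, X i) :=
      { toFun := fun F i => F ⟨i.1, Finset.mem_insert_of_mem i.2⟩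
        map_smul' := fun _ _ => rfl, map_zero' := rfl, map_add' := fun _ _ => rfl }
    have h := qHom_add hH hM (hX a) ih.1 sc res
      (fun x y h => Pi.single_injective (⟨a, Finset.mem_insert_self a s⟩ : (insert a s : Finset ι)) h)
      (fun G => ⟨fun i => if hi : i.1 ∈ s then G ⟨i.1, hi⟩ else 0, funext fun i => dif_pos i.2⟩)
      fun F => ⟨fun h => ⟨F ⟨a, Finset.mem_insert_self a s⟩, funext fun i => by
        rcases eq_or_ne i ⟨a, Finset.mem_insert_self a s⟩ with rfl | hne
        · exact Pi.single_eq_same _ _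
        · have hi : i.1 ∈ s := (Finset.mem_insert.1 i.2).resolve_left fun e => hne (Subtype.ext e)
          exact (Pi.single_eq_of_ne hne _).trans (congrFun h ⟨i.1, hi⟩).symm⟩,
        fun ⟨x, hx⟩ => hx ▸ funext fun i => Pi.single_eq_of_ne
          (fun e => ha (by rw [← show i.1 = a from congrArg Subtype.val e]; exact i.2)) _⟩
    exact ⟨h.1, by rw [h.2, ih.2, Finset.sum_insert ha]⟩

end Algebra

theorem norm_idele_apply_of_placeAt_eq {K : IntermediateField ℚ Qb} [FiniteDimensional ℚ K]
    {f : IdeleGroup} (hf : f ∈ idelesOf K) {ℓ : Nat.Primes} {ι ι' : Emb ℓ}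
    (h : placeAt ι K = placeAt ι' K) :
    ‖((f : Raw) ℓ ι' : PadicAlgCl (ℓ : ℕ))‖ = ‖((f : Raw) ℓ ι : PadicAlgCl (ℓ : ℕ))‖ := by
  obtain ⟨τ, hτ⟩ := exists_localComp_eqOn_of_placeAt_eq ι h
  rw [apply_of_localComp hf hτ]
  exact Existence.norm_localGal τ _

variable (K : IntermediateField ℚ Qb) [Normal ℚ K] [FiniteDimensional ℚ K] (T : Finset Nat.Primes)

/-- The units of the places over `T`. -/
abbrev LevelU : Type := ∀ q : T, Coind (decGroup K (q : Nat.Primes)) (locUnitOne K (q : Nat.Primes))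

/-- The inclusion of the units. -/
def unitsToLevelJ : LevelU K T →+[LevelGroup K] LevelJ K T where
  toFun F := ⟨fun q g => ((F q).1 g : locUnits K (q : Nat.Primes)), fun q h g =>
    congrArg Subtype.val ((F q).2 h g)⟩
  map_smul' _ _ := rfl
  map_zero' := rfl
  map_add' _ _ := rfl

/-- The global units in the units of the places over `T`. -/
def globalToLevelU : levelUnits K (∅ : Finset Nat.Primes) →+[LevelGroup K] LevelU K T where
  toFun x q := ⟨fun g => ⟨(inclLevel T (⟨x, x.2.1, fun ℓ _ ι => x.2.2 ℓ (Finset.notMem_empty _) ι⟩ :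
      levelUnits K T)).1 q g, by
    obtain ⟨σ, rfl⟩ := QuotientGroup.mk'_surjective K.fixingSubgroup g
    show ‖locVal K (q : Nat.Primes) _‖ = 1
    rw [locVal, inclLevel_apply]
    exact x.2.2 q (Finset.notMem_empty _) (globalComp (emb0 (q : Nat.Primes)) σ)⟩,
    fun h g => Subtype.ext ((inclLevel T _).2 q h g)⟩
  map_smul' g x := funext fun q => Subtype.ext (funext fun y => Subtype.ext (by
    obtain ⟨γ, rfl⟩ := QuotientGroup.mk'_surjective K.fixingSubgroup g
    exact congrArg (fun F : LevelJ K T => F.1 q y) (map_smul (inclLevel T) (toLevel K γ)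
      (⟨x, x.2.1, fun ℓ _ ι => x.2.2 ℓ (Finset.notMem_empty _) ι⟩ : levelUnits K T))))
  map_zero' := funext fun q => Subtype.ext (funext fun y => Subtype.ext
    (congrArg (fun F : LevelJ K T => F.1 q y) (map_zero (inclLevel (K := K) T))))
  map_add' a b := funext fun q => Subtype.ext (funext fun y => Subtype.ext
    (congrArg (fun F : LevelJ K T => F.1 q y) (map_add (inclLevel (K := K) T)
      (⟨a, a.2.1, fun ℓ _ ι => a.2.2 ℓ (Finset.notMem_empty _) ι⟩ : levelUnits K T)
      (⟨b, b.2.1, fun ℓ _ ι => b.2.2 ℓ (Finset.notMem_empty _) ι⟩ : levelUnits K T))))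

variable {K T}
variable (hK : K.IsUnramifiedOutside T)

/-- The units to the classes. -/
def unitsToClass : LevelU K T →+[LevelGroup K] ClassMod K T :=
  (projLevel hK).comp (unitsToLevelJ K T)

omit [FiniteDimensional ℚ K] in
theorem unitsToClass_eq_zero_iff (hT : T.Nonempty) (F : LevelU K T) :
    unitsToClass hK F = 0 ↔ ∃ x, globalToLevelU K T x = F := by
  constructor
  · intro h
    obtain ⟨x, hx⟩ := (projLevel_eq_zero_iff hK hT _).1 h
    have hn : ∀ ℓ : Nat.Primes, ∀ ι : Emb ℓ, ‖ι ((x : Additive Qbˣ).toMul : Qb)‖ = 1 := by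
      intro ℓ ι
      by_cases hℓ : ℓ ∈ T
      · obtain ⟨σ, rfl⟩ := globalComp_surjective ℓ ι
        have e := inclLevel_apply x ⟨ℓ, hℓ⟩ σ
        rw [hx] at e
        show ‖emb0 ℓ (σ ((x : Additive Qbˣ).toMul : Qb))‖ = 1
        rw [← e]
        exact ((F ⟨ℓ, hℓ⟩).1 (toLevel K σ)).2
      · exact x.2.2 ℓ hℓ ι
    refine ⟨⟨x, x.2.1, fun ℓ _ ι => hn ℓ ι⟩, funext fun q => Subtype.ext (funext fun g =>
      Subtype.ext ?_)⟩
    exact congrArg (fun J : LevelJ K T => J.1 q g) hx
  · rintro ⟨x, rfl⟩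
    exact (projLevel_eq_zero_iff hK hT _).2
      ⟨⟨x, x.2.1, fun ℓ _ ι => x.2.2 ℓ (Finset.notMem_empty _) ι⟩, rfl⟩

omit [FiniteDimensional ℚ K] in
theorem globalToLevelU_injective (hT : T.Nonempty) : Function.Injective (globalToLevelU K T) := by
  intro a b h
  have := inclLevel_injective (K := K) hT
    (a₁ := ⟨a, a.2.1, fun ℓ _ ι => a.2.2 ℓ (Finset.notMem_empty _) ι⟩)
    (a₂ := ⟨b, b.2.1, fun ℓ _ ι => b.2.2 ℓ (Finset.notMem_empty _) ι⟩)
    (Subtype.ext (funext fun q => funext fun g => congrArg Subtype.val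
      (congrArg (fun F : LevelU K T => (F q).1 g) h)))
  exact Subtype.ext (congrArg (fun z : levelUnits K T => (z : Additive Qbˣ)) this)

include hK in
/-- A multiple of every family is a `T`-unit up to units. -/
theorem exists_smul_eq_incl_add (F : LevelJ K T) :
    ∃ (x : levelUnits K T) (u : LevelU K T),
      Nat.card (ClassGroup (𝓞 K)) • F = inclLevel T x + unitsToLevelJ K T u := by
  classical
  have hf := toIdele_mem hK F
  have hv : ∀ w : Herbrand.placesOver (T : Set Nat.Primes) K, ∃ n : ℤ,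
      ∀ (ℓ : Nat.Primes) (ι : Emb ℓ), placeAt ι K = w.1 →
        ‖((toIdele hK F : Raw) ℓ ι : PadicAlgCl (ℓ : ℕ))‖ =
          ‖embInt ι K (unifK (placeAt ι K))‖ ^ n := by
    rintro ⟨w, ℓ₀, hℓ₀, hw⟩
    obtain ⟨ι₀, rfl⟩ := exists_placeAt_eq K w hw
    obtain ⟨n, hn⟩ := exists_norm_apply_eq_zpow ι₀ hf
    refine ⟨n, fun ℓ ι hι => ?_⟩
    dsimp only at hι
    have hι' : ((ℓ : ℕ) : 𝓞 K) ∈ (placeAt ι₀ K).asIdeal := by
      rw [← hι]
      exact natCast_mem_primeIdeal ι K
    obtain rfl : ℓ = ℓ₀ := prime_unique hι' hw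
    rw [norm_idele_apply_of_placeAt_eq hf hι.symm, hn, hι]
    congr 1
    exact norm_eq_of_placeAt_eq ι₀ hι.symm (unifK (placeAt ι₀ K) : K).2
  choose v hv using hv
  have := (finite_placesOver (K := K) (T := (T : Set Nat.Primes)) T.finite_toSet).fintype
  obtain ⟨y, hy⟩ := smul_mem_range_tUnitsOrd v
  let z : Kˣ := ((Additive.toMul y : tUnits (T : Set Nat.Primes) K) : Kˣ)
  let x : levelUnits K T := ⟨Additive.ofMul (inclUnits K z), (z : K).2,
    fun ℓ hℓ ι => (Additive.toMul y).2 ℓ hℓ ι⟩
  have hmem : ∀ (q : T) (g : LevelGroup K),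
      (Nat.card (ClassGroup (𝓞 K)) • F - inclLevel T x).1 q g ∈ locUnitOne K (q : Nat.Primes) := by
    intro q g
    obtain ⟨σ, rfl⟩ := QuotientGroup.mk'_surjective K.fixingSubgroup g
    let ι := globalComp (emb0 (q : Nat.Primes)) σ
    have hw : placeAt ι K ∈ Herbrand.placesOver (T : Set Nat.Primes) K :=
      (placeAt_mem_placesOver_iff ι).2 q.2
    have h1 : ‖locVal K (q : Nat.Primes) ((inclLevel T x).1 q (toLevel K σ))‖ =
        ‖embInt ι K (unifK (placeAt ι K))‖ ^
          ((Nat.card (ClassGroup (𝓞 K)) : ℤ) * v ⟨_, hw⟩) := by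
      have e := congrFun hy ⟨_, hw⟩
      rw [locVal, inclLevel_apply]
      show ‖ι ((z : K) : Qb)‖ = _
      rw [norm_emb_eq_zpow ι (Units.ne_zero z),
        show ordK (placeAt ι K) (z : K) = _ from e]
      rfl
    have h2 : ‖locVal K (q : Nat.Primes) (F.1 q (toLevel K σ))‖ =
        ‖embInt ι K (unifK (placeAt ι K))‖ ^ v ⟨_, hw⟩ := by
      rw [locVal, ← toIdele_apply hK F q σ]
      exact hv ⟨_, hw⟩ _ ι rfl
    have h3 : ∀ (n : ℕ) (a : locUnits K (q : Nat.Primes)),
        ‖locVal K (q : Nat.Primes) (n • a)‖ = ‖locVal K (q : Nat.Primes) a‖ ^ n := by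
      intro n a
      induction n with
      | zero => rw [zero_nsmul, locVal_zero, norm_one, pow_zero]
      | succ k ih => rw [succ_nsmul, locVal_add, norm_mul, ih, pow_succ]
    show ‖locVal K (q : Nat.Primes)
      ((Nat.card (ClassGroup (𝓞 K)) • F - inclLevel T x).1 q (toLevel K σ))‖ = 1
    have h4 : ‖locVal K (q : Nat.Primes)
        ((Nat.card (ClassGroup (𝓞 K)) • F - inclLevel T x).1 q (toLevel K σ))‖ *
        ‖locVal K (q : Nat.Primes) ((inclLevel T x).1 q (toLevel K σ))‖ =
        ‖locVal K (q : Nat.Primes) (F.1 q (toLevel K σ))‖ ^ Nat.card (ClassGroup (𝓞 K)) := by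
      rw [← norm_mul, ← locVal_add, ← h3]
      congr 2
      simp
    rw [h1, h2, ← zpow_natCast, ← zpow_mul, mul_comm (v ⟨_, hw⟩)] at h4
    exact mul_eq_right₀ (zpow_ne_zero _ (norm_unifK_pos ι).ne') |>.1 h4
  exact ⟨x, fun q => ⟨fun g => ⟨_, hmem q g⟩, fun h g => Subtype.ext
    ((Nat.card (ClassGroup (𝓞 K)) • F - inclLevel T x).2 q h g)⟩,
    (add_sub_cancel (inclLevel T x) _).symm⟩

include hK in
theorem finite_coker_unitsToClass (hT : T.Nonempty) (hgen : ClassGenerated K T) :
    Finite (ClassMod K T ⧸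
      ((unitsToClass hK : LevelU K T →+[LevelGroup K] ClassMod K T) :
        LevelU K T →+ ClassMod K T).range) := by
  classical
  set I := ((unitsToClass hK : LevelU K T →+[LevelGroup K] ClassMod K T) :
        LevelU K T →+ ClassMod K T).range
  let ord : LevelJ K T →+ (T → LevelGroup K → ℤ) :=
    AddMonoidHom.mk' (fun F q g => (locOrd K (q : Nat.Primes) (F.1 q g)).val) fun a b =>
      funext fun q => funext fun g => congrArg TrivZ.val
        (map_add (locOrd K (q : Nat.Primes)) (a.1 q g) (b.1 q g))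
  let φ : LevelJ K T →+ ClassMod K T ⧸ I :=
    (QuotientAddGroup.mk' I).comp (projLevel hK : LevelJ K T →+ ClassMod K T)
  have hφ : Function.Surjective φ :=
    (QuotientAddGroup.mk'_surjective I).comp (projLevel_surjective hK hgen)
  have hker : ord.ker ≤ φ.ker := by
    intro F hF
    have hm : ∀ q g, F.1 q g ∈ locUnitOne K (q : T) := fun q g =>
      (locOrd_eq_zero_iff K _ _).1 (TrivZ.ext (congrFun (congrFun hF q) g))
    refine (QuotientAddGroup.eq_zero_iff _).2 ⟨fun q => ⟨fun g => ⟨_, hm q g⟩, fun h g =>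
      Subtype.ext (F.2 q h g)⟩, rfl⟩
  let ord' : LevelJ K T ⧸ ord.ker →+ (T → LevelGroup K → ℤ) := QuotientAddGroup.kerLift ord
  let Lord : (LevelJ K T ⧸ ord.ker) →ₗ[ℤ] (T → LevelGroup K → ℤ) :=
    AddMonoidHom.toIntLinearMap ord'
  have : Module.Finite ℤ (LevelJ K T ⧸ ord.ker) :=
    Module.Finite.of_injective Lord fun a b h => QuotientAddGroup.kerLift_injective ord h
  let φ' : LevelJ K T ⧸ ord.ker →+ ClassMod K T ⧸ I := QuotientAddGroup.lift ord.ker φ hker
  let Lφ : (LevelJ K T ⧸ ord.ker) →ₗ[ℤ] (ClassMod K T ⧸ I) := AddMonoidHom.toIntLinearMap φ'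
  have : Module.Finite ℤ (ClassMod K T ⧸ I) :=
    Module.Finite.of_surjective Lφ fun c => by
      obtain ⟨F, rfl⟩ := hφ c
      exact ⟨(QuotientAddGroup.mk F : LevelJ K T ⧸ ord.ker), rfl⟩
  refine Module.finite_of_fg_torsion _ fun c => ?_
  obtain ⟨F, rfl⟩ := hφ c
  refine ⟨⟨(Nat.card (ClassGroup (𝓞 K)) : ℤ),
    mem_nonZeroDivisors_of_ne_zero (Int.natCast_ne_zero.2 Nat.card_pos.ne')⟩, ?_⟩
  show (Nat.card (ClassGroup (𝓞 K)) : ℤ) • φ F = 0
  obtain ⟨x, u, hu⟩ := exists_smul_eq_incl_add hK F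
  rw [natCast_zsmul, ← map_nsmul, hu, map_add]
  have e1 : φ (inclLevel T x) = 0 := (congrArg (QuotientAddGroup.mk' I)
    ((projLevel_eq_zero_iff hK hT _).2 ⟨x, rfl⟩)).trans (map_zero _)
  refine (congrArg₂ (· + ·) e1 (?_ : _ = (0 : ClassMod K T ⧸ I))).trans
    (add_zero (0 : ClassMod K T ⧸ I))
  exact (QuotientAddGroup.eq_zero_iff _).2 ⟨u, rfl⟩

variable {p : ℕ} [Fact p.Prime] (hgen : ClassGenerated K T) (hp : ⟨p, Fact.out⟩ ∈ T)
include hK hgen hp

theorem qHom_classMod_aux {M : Type} [AddCommGroup M] {D : Subgroup (LevelGroup K)}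
    [DistribMulAction D M] [Finite M] (hM : ∀ x : M, p • x = 0) (hD : ¬ p ∣ Nat.card D) :
    PFinite p (ClassMod K T) ∧ qHom D p M (LevelU K T) =
      qHom D p M (levelUnits K (∅ : Finset Nat.Primes)) + qHom D p M (ClassMod K T) := by
  have := moduleFinite_units K
  have hU : PFinite p (LevelU K T) := (qHom_pi hD hM
    (fun q : Nat.Primes => Coind (decGroup K q) (locUnitOne K q))
    (fun q => pFinite_coind (pFinite_locUnitOne K q)) T).1
  exact qHom_of_exact_finite hD hM (pFinite_of_moduleFinite _) hU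
    (restrictHom D (globalToLevelU K T)) (restrictHom D (unitsToClass hK))
    (globalToLevelU_injective ⟨_, hp⟩) (unitsToClass_eq_zero_iff hK ⟨_, hp⟩)
    (finite_coker_unitsToClass hK ⟨_, hp⟩ hgen)

variable (K T) in
theorem pFinite_classMod : PFinite p (ClassMod K T) :=
  (qHom_classMod_aux hK hgen hp (M := PUnit) (D := ⊥) (fun _ => rfl) (by
    rw [Subgroup.card_bot]
    exact (Fact.out : p.Prime).not_dvd_one)).1

variable (K T) in
theorem qHom_classMod {M : Type} [AddCommGroup M] [DistribMulAction (LevelGroup K) M] [Finite M]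
    (hM : ∀ x : M, p • x = 0) (D : Subgroup (LevelGroup K)) [IsCyclic D] (hD : ¬ p ∣ Nat.card D) :
    qHom D p M (ClassMod K T) + qHom D p M (PermZ (infDec K)) =
      qHom D p M TrivZ + qHom D p M (Ind (LevelGroup K) ℤ) := by
  classical
  have h1 := (qHom_classMod_aux hK hgen hp (M := M) (D := D) hM hD).2
  have h2 : qHom D p M (LevelU K T) = qHom D p M (Ind (LevelGroup K) ℤ) := by
    rw [(qHom_pi hD hM (fun q : Nat.Primes => Coind (decGroup K q) (locUnitOne K q))
      (fun q => pFinite_coind (pFinite_locUnitOne K q)) T).2,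
      Finset.sum_eq_single_of_mem _ hp fun q _ hq => ?_]
    · exact (qHom_coind_locUnitOne K _ hM D hD).trans (if_pos rfl)
    rw [qHom_coind_locUnitOne K q hM D hD, if_neg fun e => hq (Subtype.ext e)]
  have h3 := qHom_units K p hM D hD
  linarith

variable (K T) in
/-- The Euler characteristic of the classes. -/
theorem euler_classMod (hp2 : p ≠ 2) {M : Type} [AddCommGroup M]
    [DistribMulAction (LevelGroup K) M] [Finite M] [Module (ZMod p) M]
    {u : LevelGroup K × LevelGroup K → ClassMod K T}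
    (hu : IsPClassModule p (LevelGroup K) (ClassMod K T) u) :
    euler p (freeCover (LevelGroup K) M) (ClassMod K T) =
      dlog p (fixedSub (LevelGroup K) M) + dlog p M - dlog p (fixedSub (infDec K) M) :=
  euler_classModule_of_qHom_perm hu (pFinite_classMod K T hK hgen hp) (infDec K)
    (fun h => hp2 ((Nat.prime_dvd_prime_iff_eq Fact.out Nat.prime_two).1
      (h.trans (card_infDec_dvd_two K))))
    fun D _ hD => qHom_classMod K T hK hgen hp (ZModModule.char_nsmul_eq_zero p) D hD

end Fermat.Agent.ClassField.GW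

end
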