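import Fermat.Agent.ClassField.PadicFields
import Mathlib.RingTheory.RootsOfUnity.PrimitiveRoots
import Mathlib.RingTheory.RootsOfUnity.AlgebraicallyClosed
import Mathlib.Data.Nat.Choose.Dvd

/-!
# Roots near one in `PadicAlgCl q`

`(1 + t)^e - 1` has the absolute value of `e t` when `t` is small; hence elements close to `1` have
exactly one `e`-th root close to `1`.
-/

set_option autoImplicit false

noncomputable section

namespace Fermat.Agent.ClassField.GW.PadicBall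

open Finset

variable {q : ℕ} [Fact q.Prime]

/-- `|q|`. -/
def qNorm (q : ℕ) : ℝ := (q : ℝ)⁻¹

theorem qNorm_pos : 0 < qNorm q := inv_pos.2 (Nat.cast_pos.2 (Fact.out : q.Prime).pos)

theorem qNorm_lt_one : qNorm q < 1 :=
  inv_lt_one_of_one_lt₀ (Nat.one_lt_cast.2 (Fact.out : q.Prime).one_lt)

theorem norm_natCast_q : ‖(q : PadicAlgCl q)‖ = qNorm q := by
  rw [← map_natCast (algebraMap ℚ_[q] (PadicAlgCl q)), norm_algebraMap']
  exact Padic.norm_p

theorem norm_natCast_le_one (n : ℕ) : ‖(n : PadicAlgCl q)‖ ≤ 1 := by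
  rw [← map_natCast (algebraMap ℚ_[q] (PadicAlgCl q)), norm_algebraMap']
  exact_mod_cast Padic.norm_int_le_one (p := q) (n : ℤ)

theorem norm_natCast_eq_one {n : ℕ} (hn : ¬ q ∣ n) : ‖(n : PadicAlgCl q)‖ = 1 := by
  rw [← map_natCast (algebraMap ℚ_[q] (PadicAlgCl q)), norm_algebraMap',
    Padic.norm_natCast_eq_one_iff]
  exact (Fact.out : q.Prime).coprime_iff_not_dvd.2 hn

/-- Binomial expansion with the first two terms split off. -/
theorem exists_sum_eq (t : PadicAlgCl q) (e : ℕ) (he : 1 ≤ e) :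
    (1 + t) ^ e - 1 =
      (e : PadicAlgCl q) * t + ∑ i ∈ range (e - 1), t ^ (i + 2) * (e.choose (i + 2)) := by
  obtain ⟨k, rfl⟩ : ∃ k, e = k + 1 := ⟨e - 1, by omega⟩
  rw [add_comm (1 : PadicAlgCl q) t, add_pow, sum_range_succ', sum_range_succ', Nat.add_sub_cancel]
  simp only [one_pow, mul_one, pow_zero, one_mul, zero_add, pow_one, Nat.choose_zero_right,
    Nat.choose_one_right, Nat.cast_one]
  ring

/-- `|(1+t)^e - 1| = |e t|` when `e` is prime to `q` and `|t| < 1`. -/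
theorem norm_pow_sub_one_of_not_dvd {t : PadicAlgCl q} (ht : ‖t‖ < 1) {e : ℕ} (he : ¬ q ∣ e) :
    ‖(1 + t) ^ e - 1‖ = ‖t‖ := by
  have he1 : 1 ≤ e := Nat.one_le_iff_ne_zero.2 fun h => he (h ▸ dvd_zero q)
  rw [exists_sum_eq t e he1]
  rcases eq_or_ne t 0 with rfl | ht0
  · simp [zero_pow]
  have hlt : ‖∑ i ∈ range (e - 1), t ^ (i + 2) * (e.choose (i + 2) : PadicAlgCl q)‖ < ‖t‖ := by
    refine lt_of_le_of_lt (IsUltrametricDist.norm_sum_le_of_forall_le_of_nonneg
      (C := ‖t‖ * ‖t‖) (mul_nonneg (norm_nonneg _) (norm_nonneg _)) fun i _ => ?_) ?_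
    · rw [norm_mul, norm_pow]
      refine le_trans (mul_le_of_le_one_right (pow_nonneg (norm_nonneg _) _)
        (norm_natCast_le_one _)) ?_
      rw [pow_add, pow_two]
      exact mul_le_of_le_one_left (mul_nonneg (norm_nonneg _) (norm_nonneg _))
        (pow_le_one₀ (norm_nonneg _) ht.le)
    · exact mul_lt_of_lt_one_left (norm_pos_iff.2 ht0) ht
  have h1 : ‖(e : PadicAlgCl q) * t‖ = ‖t‖ := by rw [norm_mul, norm_natCast_eq_one he, one_mul]
  rw [IsUltrametricDist.norm_add_eq_max_of_norm_ne_norm (h1 ▸ hlt.ne'), h1, max_eq_left hlt.le]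

/-- `|(1+t)^q - 1| = |q t|` when `|t|^(q-1) < |q|`. -/
theorem norm_pow_q_sub_one {t : PadicAlgCl q} (ht : ‖t‖ ^ (q - 1) < qNorm q) :
    ‖(1 + t) ^ q - 1‖ = qNorm q * ‖t‖ := by
  have hq2 := (Fact.out : q.Prime).two_le
  have ht1 : ‖t‖ < 1 := by
    by_contra h
    exact absurd (ht.trans qNorm_lt_one) (not_lt.2 (one_le_pow₀ (not_lt.1 h)))
  rw [exists_sum_eq t q (by omega)]
  rcases eq_or_ne t 0 with rfl | ht0
  · simp [zero_pow]
  have htp : 0 < ‖t‖ := norm_pos_iff.2 ht0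
  have hlt : ‖∑ i ∈ range (q - 1), t ^ (i + 2) * (q.choose (i + 2) : PadicAlgCl q)‖ <
      qNorm q * ‖t‖ := by
    refine lt_of_le_of_lt (IsUltrametricDist.norm_sum_le_of_forall_le_of_nonneg
      (C := max (qNorm q * (‖t‖ * ‖t‖)) (‖t‖ ^ q))
      (le_max_of_le_right (pow_nonneg (norm_nonneg _) _)) fun i hi => ?_) ?_
    · rw [norm_mul, norm_pow]
      rcases eq_or_ne (i + 2) q with h | h
      · rw [h, Nat.choose_self, Nat.cast_one, norm_one, mul_one]
        exact le_max_right _ _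
      · obtain ⟨c, hc⟩ := Nat.Prime.dvd_choose_self (Fact.out : q.Prime) (by omega : i + 2 ≠ 0)
          (by rw [mem_range] at hi; omega)
        refine le_trans ?_ (le_max_left _ _)
        rw [hc, Nat.cast_mul, norm_mul, norm_natCast_q, mul_comm, pow_add, pow_two]
        refine mul_le_mul ?_ ?_ (by positivity) qNorm_pos.le
        · exact mul_le_of_le_one_right qNorm_pos.le (norm_natCast_le_one c)
        · exact mul_le_of_le_one_left (by positivity) (pow_le_one₀ (norm_nonneg _) ht1.le)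
    · refine max_lt (mul_lt_mul_of_pos_left (mul_lt_of_lt_one_left htp ht1) qNorm_pos) ?_
      have : ‖t‖ ^ q = ‖t‖ ^ (q - 1) * ‖t‖ := by rw [← pow_succ]; congr 1; omega
      rw [this]
      exact mul_lt_mul_of_pos_right ht htp
  have h1 : ‖(q : PadicAlgCl q) * t‖ = qNorm q * ‖t‖ := by rw [norm_mul, norm_natCast_q]
  rw [IsUltrametricDist.norm_add_eq_max_of_norm_ne_norm (h1 ▸ hlt.ne'), h1, max_eq_left hlt.le]

/-- Some `e`-th root of `y` is within `s` of `1` if `|y - 1| ≤ s^e`. -/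
theorem exists_root_near {y : PadicAlgCl q} {e : ℕ} (he : 0 < e) {s : ℝ} (hs : 0 ≤ s)
    (hy : ‖y - 1‖ ≤ s ^ e) : ∃ w : PadicAlgCl q, w ^ e = y ∧ ‖w - 1‖ ≤ s := by
  classical
  obtain ⟨z, hz⟩ := IsAlgClosed.exists_pow_nat_eq y he
  have : NeZero (e : PadicAlgCl q) := ⟨Nat.cast_ne_zero.2 he.ne'⟩
  have : NeZero e := ⟨he.ne'⟩
  obtain ⟨ζ, hζ⟩ := HasEnoughRootsOfUnity.exists_primitiveRoot (PadicAlgCl q) e
  have hprod := hζ.pow_sub_pow_eq_prod_sub_mul (x := (1 : PadicAlgCl q)) (y := z) he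
  rw [one_pow, hz] at hprod
  by_contra hcon
  push Not at hcon
  have hall : ∀ μ ∈ Polynomial.nthRootsFinset e (1 : PadicAlgCl q), s < ‖1 - μ * z‖ := by
    intro μ hμ
    rw [norm_sub_rev]
    refine hcon _ ?_
    rw [mul_pow, (Polynomial.mem_nthRootsFinset he 1).1 hμ, one_mul, hz]
  have hcard : (Polynomial.nthRootsFinset e (1 : PadicAlgCl q)).card = e := hζ.card_nthRootsFinset
  have hne : (Polynomial.nthRootsFinset e (1 : PadicAlgCl q)).Nonempty :=
    Finset.card_pos.1 (hcard.symm ▸ he)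
  rw [norm_sub_rev, hprod, norm_prod] at hy
  refine absurd hy (not_le.2 ?_)
  calc s ^ e = ∏ _μ ∈ Polynomial.nthRootsFinset e (1 : PadicAlgCl q), s := by
        rw [Finset.prod_const, hcard]
    _ < _ := by
        rcases eq_or_lt_of_le hs with rfl | hs'
        · rw [Finset.prod_const, hcard, zero_pow he.ne']
          exact Finset.prod_pos fun μ hμ => (hall μ hμ)
        · exact Finset.prod_lt_prod_of_nonempty (fun _ _ => hs') hall hne

/-- Elements of the ball of radius `|q|^3` are `q`-th powers of elements of that of radius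
`|q|^2`. -/
theorem exists_qRoot {y : PadicAlgCl q} (hy : ‖y - 1‖ ≤ qNorm q ^ 3) :
    ∃ w : PadicAlgCl q, w ^ q = y ∧ ‖w - 1‖ ≤ qNorm q ^ 2 := by
  have hq2 := (Fact.out : q.Prime).two_le
  have hy' : ‖y - 1‖ ≤ ((qNorm q ^ 3) ^ ((q : ℝ)⁻¹)) ^ q := by
    rw [← Real.rpow_natCast ((qNorm q ^ 3) ^ ((q : ℝ)⁻¹)) q, ← Real.rpow_mul
      (pow_nonneg qNorm_pos.le 3), inv_mul_cancel₀ (Nat.cast_ne_zero.2 (by omega)), Real.rpow_one]
    exact hy
  obtain ⟨w, hw, hw1⟩ := exists_root_near (q := q) (e := q) (by omega)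
    (Real.rpow_nonneg (pow_nonneg qNorm_pos.le 3) _) hy'
  refine ⟨w, hw, ?_⟩
  have hsm : ‖w - 1‖ ^ (q - 1) < qNorm q := by
    by_contra hle
    have h1 : qNorm q ^ q ≤ (‖w - 1‖ ^ q) ^ (q - 1) := by
      rw [← pow_mul, mul_comm, pow_mul]
      exact pow_le_pow_left₀ qNorm_pos.le (not_lt.1 hle) q
    have h2 : ‖w - 1‖ ^ q ≤ qNorm q ^ 3 := by
      refine (pow_le_pow_left₀ (norm_nonneg _) hw1 q).trans ?_
      rw [← Real.rpow_natCast ((qNorm q ^ 3) ^ ((q : ℝ)⁻¹)) q, ← Real.rpow_mul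
        (pow_nonneg qNorm_pos.le 3), inv_mul_cancel₀ (Nat.cast_ne_zero.2 (by omega)), Real.rpow_one]
    have h3 := h1.trans (pow_le_pow_left₀ (pow_nonneg (norm_nonneg _) q) h2 (q - 1))
    rw [← pow_mul] at h3
    exact absurd h3 (not_le.2 (pow_lt_pow_right_of_lt_one₀ qNorm_pos qNorm_lt_one (by omega)))
  have h := norm_pow_q_sub_one (t := w - 1) hsm
  rw [add_sub_cancel, hw] at h
  have h2 : qNorm q * ‖w - 1‖ ≤ qNorm q * qNorm q ^ 2 := by
    rw [← h]; exact hy.trans_eq (pow_succ' _ 2)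
  exact le_of_mul_le_mul_left h2 qNorm_pos

/-- For `e` prime to `q` a ball around `1` is stable under roots. -/
theorem exists_root_of_not_dvd {y : PadicAlgCl q} {e : ℕ} (he : ¬ q ∣ e) {s : ℝ} (hs : 0 ≤ s)
    (hs1 : s < 1) (hy : ‖y - 1‖ ≤ s) : ∃ w : PadicAlgCl q, w ^ e = y ∧ ‖w - 1‖ ≤ s := by
  have he1 : 0 < e := Nat.pos_of_ne_zero fun h => he (h ▸ dvd_zero q)
  obtain ⟨w, hw, hw1⟩ := exists_root_near (q := q) he1 (Real.rpow_nonneg hs _)
    (show ‖y - 1‖ ≤ (s ^ ((e : ℝ)⁻¹)) ^ e by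
      rw [← Real.rpow_natCast (s ^ ((e : ℝ)⁻¹)) e, ← Real.rpow_mul hs,
        inv_mul_cancel₀ (Nat.cast_ne_zero.2 he1.ne'), Real.rpow_one]
      exact hy)
  refine ⟨w, hw, ?_⟩
  have hlt : ‖w - 1‖ < 1 := lt_of_le_of_lt hw1
    (Real.rpow_lt_one hs hs1 (inv_pos.2 (Nat.cast_pos.2 he1)))
  have h := norm_pow_sub_one_of_not_dvd hlt he
  rw [add_sub_cancel, hw] at h
  rwa [← h]

/-- The `q`-th root near `1` is unique. -/
theorem eq_of_pow_q_eq {w w' : PadicAlgCl q} (hw : ‖w - 1‖ ≤ qNorm q ^ 2)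
    (hw' : ‖w' - 1‖ ≤ qNorm q ^ 2) (h : w ^ q = w' ^ q) : w = w' := by
  have hsq : qNorm q ^ 2 < 1 := pow_lt_one₀ qNorm_pos.le qNorm_lt_one two_ne_zero
  have hn : ‖w‖ = 1 := by
    have := IsUltrametricDist.norm_add_eq_max_of_norm_ne_norm (x := (1 : PadicAlgCl q))
      (y := w - 1) (by rw [norm_one]; exact (hw.trans_lt hsq).ne')
    rwa [add_sub_cancel, norm_one, max_eq_left (hw.trans_lt hsq).le] at this
  have hw0 : w ≠ 0 := fun h0 => by rw [h0, norm_zero] at hn; exact zero_ne_one hn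
  have ht : ‖w' / w - 1‖ ≤ qNorm q ^ 2 := by
    rw [div_sub_one hw0, norm_div, hn, div_one, show w' - w = (w' - 1) + (1 - w) by ring]
    exact (IsUltrametricDist.norm_add_le_max _ _).trans (max_le hw' (by rwa [norm_sub_rev]))
  have hsm : ‖w' / w - 1‖ ^ (q - 1) < qNorm q := by
    refine lt_of_le_of_lt (pow_le_pow_left₀ (norm_nonneg _) ht _) ?_
    rw [← pow_mul]
    exact pow_lt_self_of_lt_one₀ qNorm_pos qNorm_lt_one
      (by have := (Fact.out : q.Prime).two_le; omega)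
  have e := norm_pow_q_sub_one (t := w' / w - 1) hsm
  rw [add_sub_cancel, div_pow, h, div_self (h ▸ pow_ne_zero _ hw0), sub_self, norm_zero,
    zero_eq_mul, or_iff_right qNorm_pos.ne', norm_eq_zero, sub_eq_zero, div_eq_one_iff_eq hw0] at e
  exact e.symm

/-- A root of order prime to `q` near `1` is unique. -/
theorem eq_of_pow_eq {w w' : PadicAlgCl q} {e : ℕ} (he : ¬ q ∣ e) (hw : ‖w - 1‖ < 1)
    (hw' : ‖w' - 1‖ < 1) (h : w ^ e = w' ^ e) : w = w' := by
  have hn : ‖w‖ = 1 := by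
    have := IsUltrametricDist.norm_add_eq_max_of_norm_ne_norm (x := (1 : PadicAlgCl q))
      (y := w - 1) (by rw [norm_one]; exact hw.ne')
    rwa [add_sub_cancel, norm_one, max_eq_left hw.le] at this
  have hw0 : w ≠ 0 := fun h0 => by rw [h0, norm_zero] at hn; exact zero_ne_one hn
  have ht : ‖w' / w - 1‖ < 1 := by
    rw [div_sub_one hw0, norm_div, hn, div_one, show w' - w = (w' - 1) + (1 - w) by ring]
    exact lt_of_le_of_lt (IsUltrametricDist.norm_add_le_max _ _)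
      (max_lt hw' (by rwa [norm_sub_rev]))
  have e' := norm_pow_sub_one_of_not_dvd (t := w' / w - 1) ht he
  rw [add_sub_cancel, div_pow, h, div_self (h ▸ pow_ne_zero _ hw0), sub_self, norm_zero,
    eq_comm, norm_eq_zero, sub_eq_zero, div_eq_one_iff_eq hw0] at e'
  exact e'.symm

end Fermat.Agent.ClassField.GW.PadicBall

end
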