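import Fermat.Agent.ClassField.GW.Values.Coind
import Fermat.Agent.ClassField.GW.Values.PadicBall
import Fermat.Agent.ClassField.GW.Level
import Fermat.Agent.ClassField.S55.Final.LocalFormation
import Fermat.Agent.ClassField.Idele.Existence.Embeddings

/-!
# Greenberg–Wiles: the units of the local fields of a level

`0 → U → K_q^× → ℤ → 0`, and `qHom` of `U` (and of the modules coinduced from it) is `qHom` of
the group ring at `q = p` and `0` otherwise.
-/

set_option autoImplicit false
set_option linter.unusedSectionVars false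

noncomputable section

open scoped NumberField Fermat.Agent.ClassField
open IntermediateField

namespace Fermat.Agent.ClassField.GW

open S55 Idele

local notation "Qb" => AlgebraicClosure ℚ

variable (K : IntermediateField ℚ Qb) [Normal ℚ K] (q : Nat.Primes)

/-- The underlying element of a local unit. -/
def locVal (y : locUnits K q) : PadicAlgCl (q : ℕ) :=
  (((y : LUnits q).toMul : (PadicAlgCl (q : ℕ))ˣ) : PadicAlgCl (q : ℕ))

theorem locVal_ne_zero (y : locUnits K q) : locVal K q y ≠ 0 := Units.ne_zero _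

theorem locVal_add (y z : locUnits K q) : locVal K q (y + z) = locVal K q y * locVal K q z := rfl

theorem locVal_zero : locVal K q 0 = 1 := rfl

theorem locVal_smul (g : decGroup K q) (y : locUnits K q) :
    locVal K q (g • y) = (liftDec g) (locVal K q y) := rfl

/-- The units of the local field. -/
def locUnitOne : AddSubgroup (locUnits K q) where
  carrier := {y | ‖locVal K q y‖ = 1}
  add_mem' {y z} hy hz := by
    show ‖locVal K q (y + z)‖ = 1
    rw [locVal_add, norm_mul, hy, hz, mul_one]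
  zero_mem' := by
    show ‖locVal K q 0‖ = 1
    rw [locVal_zero, norm_one]
  neg_mem' {y} hy := by
    show ‖locVal K q (-y)‖ = 1
    have h : ‖locVal K q (-y)‖ * ‖locVal K q y‖ = 1 := by
      rw [← norm_mul, ← locVal_add, neg_add_cancel, locVal_zero, norm_one]
    rwa [show ‖locVal K q y‖ = 1 from hy, mul_one] at h

theorem smul_mem_locUnitOne (g : decGroup K q) {y : locUnits K q} (hy : y ∈ locUnitOne K q) :
    g • y ∈ locUnitOne K q := by
  show ‖locVal K q (g • y)‖ = 1
  rw [locVal_smul, Existence.norm_localGal]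
  exact hy

instance locUnitOneAction : DistribMulAction (decGroup K q) (locUnitOne K q) where
  smul g y := ⟨g • (y : locUnits K q), smul_mem_locUnitOne K q g y.2⟩
  one_smul y := Subtype.ext (one_smul (decGroup K q) (y : locUnits K q))
  mul_smul g h y := Subtype.ext (mul_smul g h (y : locUnits K q))
  smul_zero g := Subtype.ext (smul_zero g)
  smul_add g y z := Subtype.ext (smul_add g (y : locUnits K q) (z : locUnits K q))

/-- The inclusion of the units. -/
def unitOneIncl : locUnitOne K q →+[decGroup K q] locUnits K q where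
  toFun y := y
  map_smul' _ _ := rfl
  map_zero' := rfl
  map_add' _ _ := rfl

variable [FiniteDimensional ℚ K]

theorem exists_locOrd_fn (y : locUnits K q) : ∃ n : ℤ,
    ‖locVal K q y‖ = ‖PadicFields.uniformizer (localField (emb0 q) K)‖ ^ n :=
  PadicFields.exists_norm_eq_zpow (localField (emb0 q) K)
    (x := ⟨locVal K q y, mem_localField_of_mem_locUnits y.2⟩)
    fun h => locVal_ne_zero K q y (congrArg Subtype.val h)

/-- The normalised valuation. -/
def locOrd : locUnits K q →+[decGroup K q] TrivZ where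
  toFun y := ⟨(exists_locOrd_fn K q y).choose⟩
  map_smul' g y := TrivZ.ext (PadicFields.zpow_norm_uniformizer_inj (localField (emb0 q) K) (by
    show ‖PadicFields.uniformizer (localField (emb0 q) K)‖ ^ (exists_locOrd_fn K q (g • y)).choose =
      ‖PadicFields.uniformizer (localField (emb0 q) K)‖ ^ (exists_locOrd_fn K q y).choose
    rw [← (exists_locOrd_fn K q (g • y)).choose_spec, ← (exists_locOrd_fn K q y).choose_spec,
      locVal_smul, Existence.norm_localGal]))
  map_zero' := TrivZ.ext (PadicFields.zpow_norm_uniformizer_inj (localField (emb0 q) K) (by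
    show ‖PadicFields.uniformizer (localField (emb0 q) K)‖ ^ (exists_locOrd_fn K q 0).choose =
      ‖PadicFields.uniformizer (localField (emb0 q) K)‖ ^ (0 : ℤ)
    rw [← (exists_locOrd_fn K q 0).choose_spec, locVal_zero, norm_one, zpow_zero]))
  map_add' y z := TrivZ.ext (PadicFields.zpow_norm_uniformizer_inj (localField (emb0 q) K) (by
    show ‖PadicFields.uniformizer (localField (emb0 q) K)‖ ^ (exists_locOrd_fn K q (y + z)).choose =
      ‖PadicFields.uniformizer (localField (emb0 q) K)‖ ^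
        ((exists_locOrd_fn K q y).choose + (exists_locOrd_fn K q z).choose)
    rw [zpow_add₀ (PadicFields.norm_uniformizer_pos _).ne', ← (exists_locOrd_fn K q (y + z)).choose_spec,
      ← (exists_locOrd_fn K q y).choose_spec, ← (exists_locOrd_fn K q z).choose_spec, locVal_add,
      norm_mul]))

theorem norm_locVal_eq (y : locUnits K q) :
    ‖locVal K q y‖ = ‖PadicFields.uniformizer (localField (emb0 q) K)‖ ^ (locOrd K q y).val :=
  (exists_locOrd_fn K q y).choose_spec

theorem locOrd_surjective : Function.Surjective (locOrd K q) := fun n => by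
  let π := PadicFields.uniformizer (localField (emb0 q) K)
  let x : Additive (↥(localField (emb0 q) K))ˣ :=
    Additive.ofMul ((Units.mk0 π (PadicFields.uniformizer_ne_zero _)) ^ n.val)
  refine ⟨(locUnitsEquiv K q).symm x, TrivZ.ext
    (PadicFields.zpow_norm_uniformizer_inj (localField (emb0 q) K) ?_)⟩
  rw [← norm_locVal_eq]
  show ‖(((Units.mk0 π (PadicFields.uniformizer_ne_zero _)) ^ n.val : (↥(localField (emb0 q) K))ˣ) :
    ↥(localField (emb0 q) K))‖ = _
  rw [Units.val_zpow_eq_zpow_val, norm_zpow]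
  rfl

theorem locOrd_eq_zero_iff (y : locUnits K q) : locOrd K q y = 0 ↔ y ∈ locUnitOne K q := by
  show _ ↔ ‖locVal K q y‖ = 1
  rw [norm_locVal_eq]
  refine ⟨fun h => ?_, fun h => TrivZ.ext ?_⟩
  · rw [h]
    exact zpow_zero _
  · exact PadicFields.zpow_norm_uniformizer_inj (localField (emb0 q) K) (h.trans (zpow_zero _).symm)

section Field

variable {K q}

/-- Local automorphisms with the same image in the level group agree on the local field. -/
theorem apply_eq_of_toLevel_eq {τ τ' : LocalGal q}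
    (h : toLevel K (S55.locHom q τ) = toLevel K (S55.locHom q τ')) {x : PadicAlgCl (q : ℕ)}
    (hx : x ∈ localField (emb0 q) K) : τ x = τ' x := by
  have h' : S55.locHom q (τ'⁻¹ * τ) ∈ K.fixingSubgroup := by
    rw [map_mul, map_inv]
    exact QuotientGroup.eq.mp h.symm
  have := (IntermediateField.mem_fixingSubgroup_iff _ _).1
    ((locHom_mem_fixingSubgroup_iff K q _).1 h') x hx
  conv_rhs => rw [← this]
  simp

theorem apply_mem_localField' (τ : LocalGal q) {x : PadicAlgCl (q : ℕ)}
    (hx : x ∈ localField (emb0 q) K) : τ x ∈ localField (emb0 q) K :=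
  (IntermediateField.normal_iff_forall_map_le'.mp (normal_localField_emb0 K q) τ) ⟨x, hx, rfl⟩

theorem mem_localField_of_fixed {x : PadicAlgCl (q : ℕ)}
    (h : ∀ τ : LocalGal q, S55.locHom q τ ∈ K.fixingSubgroup → τ x = x) :
    x ∈ localField (emb0 q) K := by
  rw [← InfiniteGalois.fixedField_fixingSubgroup (localField (emb0 q) K)]
  rintro ⟨τ, hτ⟩
  exact h τ ((locHom_mem_fixingSubgroup_iff K q τ).2 hτ)

variable (K q)

/-- A local unit from an element of the local field. -/
def mkLoc (x : PadicAlgCl (q : ℕ)) (hx : x ∈ localField (emb0 q) K) (h0 : x ≠ 0) : locUnits K q :=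
  ⟨Additive.ofMul (Units.mk0 x h0), fun τ hτ => Additive.toMul.injective (Units.ext
    ((IntermediateField.mem_fixingSubgroup_iff _ _).mp
      ((locHom_mem_fixingSubgroup_iff K q τ).1 hτ) x hx))⟩

theorem locVal_mkLoc (x : PadicAlgCl (q : ℕ)) (hx : x ∈ localField (emb0 q) K) (h0 : x ≠ 0) :
    locVal K q (mkLoc K q x hx h0) = x := rfl

theorem locVal_injective : Function.Injective (locVal K q) := fun _ _ h =>
  Subtype.ext (Additive.toMul.injective (Units.ext h))

theorem locVal_mem (y : locUnits K q) : locVal K q y ∈ localField (emb0 q) K :=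
  mem_localField_of_mem_locUnits y.2

theorem locVal_nsmul (n : ℕ) (y : locUnits K q) : locVal K q (n • y) = locVal K q y ^ n := by
  induction n with
  | zero => rw [zero_nsmul, pow_zero, locVal_zero]
  | succ n ih => rw [succ_nsmul, locVal_add, ih, pow_succ]

theorem locVal_neg (y : locUnits K q) : locVal K q (-y) = (locVal K q y)⁻¹ :=
  eq_inv_of_mul_eq_one_left (by rw [← locVal_add, neg_add_cancel, locVal_zero])

/-- The integers of the local field. -/
def locInts : AddSubgroup (PadicAlgCl (q : ℕ)) where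
  carrier := {x | x ∈ localField (emb0 q) K ∧ ‖x‖ ≤ 1}
  add_mem' {a b} ha hb := ⟨add_mem ha.1 hb.1,
    (IsUltrametricDist.norm_add_le_max a b).trans (max_le ha.2 hb.2)⟩
  zero_mem' := ⟨zero_mem _, by rw [norm_zero]; exact zero_le_one⟩
  neg_mem' {a} ha := ⟨neg_mem ha.1, by rw [norm_neg]; exact ha.2⟩

theorem smul_mem_locInts (τ : LocalGal q) {x : PadicAlgCl (q : ℕ)} (hx : x ∈ locInts K q) :
    τ x ∈ locInts K q :=
  ⟨apply_mem_localField' τ hx.1, by rw [Existence.norm_localGal]; exact hx.2⟩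

instance locIntsAction : DistribMulAction (decGroup K q) (locInts K q) where
  smul g x := ⟨liftDec g (x : PadicAlgCl (q : ℕ)), smul_mem_locInts K q _ x.2⟩
  one_smul x := Subtype.ext ((apply_eq_of_toLevel_eq (τ' := 1)
    (by rw [liftDec_spec, map_one, map_one]; rfl) x.2.1).trans rfl)
  mul_smul g h x := Subtype.ext ((apply_eq_of_toLevel_eq (τ' := liftDec g * liftDec h) (by
    rw [liftDec_spec, map_mul, map_mul, liftDec_spec, liftDec_spec]; rfl) x.2.1).trans rfl)
  smul_zero g := Subtype.ext (map_zero (liftDec g))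
  smul_add g x y := Subtype.ext (map_add (liftDec g) _ _)

theorem coe_smul_locInts (g : decGroup K q) (x : locInts K q) :
    ((g • x : locInts K q) : PadicAlgCl (q : ℕ)) = liftDec g (x : PadicAlgCl (q : ℕ)) := rfl

/-- The units congruent to `1` modulo `q²`. -/
def locBall : AddSubgroup (locUnits K q) where
  carrier := {y | ‖locVal K q y - 1‖ ≤ PadicBall.qNorm (q : ℕ) ^ 2}
  add_mem' {y z} hy hz := by
    show ‖locVal K q (y + z) - 1‖ ≤ _
    rw [locVal_add, show locVal K q y * locVal K q z - 1 =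
      (locVal K q y - 1) + (locVal K q z - 1) + (locVal K q y - 1) * (locVal K q z - 1) by ring]
    refine (IsUltrametricDist.norm_add_le_max _ _).trans (max_le
      ((IsUltrametricDist.norm_add_le_max _ _).trans (max_le hy hz)) ?_)
    rw [norm_mul]
    exact (mul_le_mul hy hz (norm_nonneg _) (pow_nonneg PadicBall.qNorm_pos.le 2)).trans
      (mul_le_of_le_one_left (pow_nonneg PadicBall.qNorm_pos.le 2)
        (pow_le_one₀ PadicBall.qNorm_pos.le PadicBall.qNorm_lt_one.le))
  zero_mem' := by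
    show ‖locVal K q 0 - 1‖ ≤ _
    rw [locVal_zero, sub_self, norm_zero]
    exact pow_nonneg PadicBall.qNorm_pos.le 2
  neg_mem' {y} hy := by
    show ‖locVal K q (-y) - 1‖ ≤ _
    have h1 : ‖locVal K q y‖ = 1 := by
      have h := IsUltrametricDist.norm_add_eq_max_of_norm_ne_norm
        (x := (1 : PadicAlgCl (q : ℕ))) (y := locVal K q y - 1) (by
          rw [norm_one]
          exact (lt_of_le_of_lt hy (pow_lt_one₀ PadicBall.qNorm_pos.le PadicBall.qNorm_lt_one
            two_ne_zero)).ne')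
      rwa [add_sub_cancel, norm_one, max_eq_left (lt_of_le_of_lt hy (pow_lt_one₀
        PadicBall.qNorm_pos.le PadicBall.qNorm_lt_one two_ne_zero)).le] at h
    rw [locVal_neg, show (locVal K q y)⁻¹ - 1 = (1 - locVal K q y) / locVal K q y by
      field_simp [locVal_ne_zero K q y], norm_div, h1, div_one, norm_sub_rev]
    exact hy

theorem norm_locVal_of_mem_locBall {y : locUnits K q} (hy : y ∈ locBall K q) :
    ‖locVal K q y‖ = 1 := by
  have hlt : ‖locVal K q y - 1‖ < 1 :=
    lt_of_le_of_lt hy (pow_lt_one₀ PadicBall.qNorm_pos.le PadicBall.qNorm_lt_one two_ne_zero)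
  have h := IsUltrametricDist.norm_add_eq_max_of_norm_ne_norm
    (x := (1 : PadicAlgCl (q : ℕ))) (y := locVal K q y - 1) (by rw [norm_one]; exact hlt.ne')
  rwa [add_sub_cancel, norm_one, max_eq_left hlt.le] at h

instance locBallAction : DistribMulAction (decGroup K q) (locBall K q) where
  smul g y := ⟨g • (y : locUnits K q), by
    show ‖locVal K q (g • (y : locUnits K q)) - 1‖ ≤ _
    rw [locVal_smul, ← map_one (liftDec g), ← map_sub, Existence.norm_localGal]
    exact y.2⟩
  one_smul y := Subtype.ext (one_smul (decGroup K q) (y : locUnits K q))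
  mul_smul g h y := Subtype.ext (mul_smul g h (y : locUnits K q))
  smul_zero g := Subtype.ext (smul_zero g)
  smul_add g y z := Subtype.ext (smul_add g (y : locUnits K q) (z : locUnits K q))

/-- The congruence units as units. -/
def ballIncl : locBall K q →+[decGroup K q] locUnitOne K q where
  toFun y := ⟨y, norm_locVal_of_mem_locBall K q y.2⟩
  map_smul' _ _ := rfl
  map_zero' := rfl
  map_add' _ _ := rfl

theorem ballIncl_injective : Function.Injective (ballIncl K q) := fun _ _ h =>
  Subtype.ext (congrArg (fun w : locUnitOne K q => (w : locUnits K q)) h)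

/-- `(y - 1)/q²`. -/
def ballCoord (y : locBall K q) : locInts K q :=
  ⟨(locVal K q y - 1) / (q : PadicAlgCl (q : ℕ)) ^ 2,
    div_mem (sub_mem (locVal_mem K q y) (one_mem _)) (pow_mem (_root_.natCast_mem _ _) 2), by
      rw [norm_div, norm_pow, PadicBall.norm_natCast_q]
      exact div_le_one_of_le₀ y.2 (pow_nonneg PadicBall.qNorm_pos.le 2)⟩

/-- `y ↦ (y - 1)/q² mod q`. -/
def ballRed : locBall K q →+[decGroup K q] locInts K q ⧸ pSub (q : ℕ) (locInts K q) where
  toFun y := QuotientAddGroup.mk (ballCoord K q y)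
  map_smul' g y := by
    refine congrArg QuotientAddGroup.mk (Subtype.ext ?_)
    show (locVal K q (g • (y : locUnits K q)) - 1) / (q : PadicAlgCl (q : ℕ)) ^ 2 =
      liftDec g ((locVal K q y - 1) / (q : PadicAlgCl (q : ℕ)) ^ 2)
    rw [locVal_smul, map_div₀, map_sub, map_one, map_pow, map_natCast]
  map_zero' := by
    refine (QuotientAddGroup.eq_zero_iff _).2 (mem_pSub.2 ⟨0, Subtype.ext ?_⟩)
    show (((q : ℕ) • (0 : locInts K q) : locInts K q) : PadicAlgCl (q : ℕ)) =
      (locVal K q 0 - 1) / _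
    rw [smul_zero, locVal_zero, sub_self, zero_div]
    rfl
  map_add' y z := by
    rw [← QuotientAddGroup.mk_add]
    refine QuotientAddGroup.eq.2 (mem_pSub.2 ⟨⟨-((q : PadicAlgCl (q : ℕ)) *
      (ballCoord K q y * ballCoord K q z : PadicAlgCl (q : ℕ))),
      neg_mem (mul_mem (_root_.natCast_mem _ _) (mul_mem (ballCoord K q y).2.1 (ballCoord K q z).2.1)), ?_⟩,
      Subtype.ext ?_⟩)
    · rw [norm_neg, norm_mul, norm_mul, PadicBall.norm_natCast_q]
      exact mul_le_one₀ PadicBall.qNorm_lt_one.le (by positivity)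
        (mul_le_one₀ (ballCoord K q y).2.2 (norm_nonneg _) (ballCoord K q z).2.2)
    · have hq : (q : PadicAlgCl (q : ℕ)) ≠ 0 := Nat.cast_ne_zero.2 q.2.ne_zero
      rw [AddSubgroup.coe_nsmul, nsmul_eq_mul, AddSubgroup.coe_add, AddSubgroup.coe_neg,
        AddSubgroup.coe_add]
      show _ = -((locVal K q ((y : locUnits K q) + z) - 1) / (q : PadicAlgCl (q : ℕ)) ^ 2) +
        ((locVal K q y - 1) / (q : PadicAlgCl (q : ℕ)) ^ 2 +
          (locVal K q z - 1) / (q : PadicAlgCl (q : ℕ)) ^ 2)
      rw [locVal_add]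
      simp only [ballCoord]
      field_simp
      ring

theorem ballRed_surjective : Function.Surjective (ballRed K q) := by
  intro x
  induction x using QuotientAddGroup.induction_on with
  | H a =>
    have hn : ‖(q : PadicAlgCl (q : ℕ)) ^ 2 * (a : PadicAlgCl (q : ℕ))‖ ≤
        PadicBall.qNorm (q : ℕ) ^ 2 := by
      rw [norm_mul, norm_pow, PadicBall.norm_natCast_q]
      exact mul_le_of_le_one_right (pow_nonneg PadicBall.qNorm_pos.le 2) a.2.2
    have h0 : (1 : PadicAlgCl (q : ℕ)) + (q : PadicAlgCl (q : ℕ)) ^ 2 * a ≠ 0 := by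
      intro h
      rw [add_eq_zero_iff_eq_neg'] at h
      rw [h, norm_neg, norm_one] at hn
      exact absurd hn (not_le.2 (pow_lt_one₀ PadicBall.qNorm_pos.le PadicBall.qNorm_lt_one two_ne_zero))
    refine ⟨⟨mkLoc K q _ (add_mem (one_mem _) (mul_mem (pow_mem (_root_.natCast_mem _ _) 2) a.2.1)) h0, ?_⟩,
      congrArg QuotientAddGroup.mk (Subtype.ext ?_)⟩
    · show ‖locVal K q _ - 1‖ ≤ _
      rwa [locVal_mkLoc, add_sub_cancel_left]
    · show (locVal K q _ - 1) / _ = _
      rw [locVal_mkLoc, add_sub_cancel_left,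
        mul_div_cancel_left₀ _ (pow_ne_zero 2 (Nat.cast_ne_zero.2 q.2.ne_zero))]

theorem ballRed_eq_zero_iff (y : locBall K q) :
    ballRed K q y = 0 ↔ ∃ w, (q : ℕ) • w = y := by
  have hq : (q : PadicAlgCl (q : ℕ)) ≠ 0 := Nat.cast_ne_zero.2 q.2.ne_zero
  constructor
  · intro h
    obtain ⟨b, hb⟩ := mem_pSub.1 ((QuotientAddGroup.eq_zero_iff _).1 h)
    have hy : ‖locVal K q y - 1‖ ≤ PadicBall.qNorm (q : ℕ) ^ 3 := by
      have e : (q : PadicAlgCl (q : ℕ)) * (b : PadicAlgCl (q : ℕ)) =
          (locVal K q y - 1) / (q : PadicAlgCl (q : ℕ)) ^ 2 := by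
        have := congrArg (fun w : locInts K q => (w : PadicAlgCl (q : ℕ))) hb
        simp only [AddSubgroup.coe_nsmul, nsmul_eq_mul] at this
        exact this
      rw [eq_div_iff (pow_ne_zero 2 hq)] at e
      rw [← e, norm_mul, norm_mul, norm_pow, PadicBall.norm_natCast_q,
        show PadicBall.qNorm (q : ℕ) ^ 3 =
          PadicBall.qNorm (q : ℕ) * 1 * PadicBall.qNorm (q : ℕ) ^ 2 by ring]
      exact mul_le_mul_of_nonneg_right (mul_le_mul_of_nonneg_left b.2.2 PadicBall.qNorm_pos.le)
        (pow_nonneg PadicBall.qNorm_pos.le 2)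
    obtain ⟨w, hw, hw1⟩ := PadicBall.exists_qRoot hy
    have hwF : w ∈ localField (emb0 q) K := mem_localField_of_fixed fun τ hτ =>
      PadicBall.eq_of_pow_q_eq (by rw [← map_one τ, ← map_sub, Existence.norm_localGal]; exact hw1)
        hw1 (by
          rw [← map_pow, hw]
          exact (IntermediateField.mem_fixingSubgroup_iff _ _).mp
            ((locHom_mem_fixingSubgroup_iff K q τ).1 hτ) _ (locVal_mem K q y))
    have hw0 : w ≠ 0 := fun h0 => locVal_ne_zero K q y (by rw [← hw, h0, zero_pow q.2.ne_zero])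
    refine ⟨⟨mkLoc K q w hwF hw0, hw1⟩, Subtype.ext (locVal_injective K q ?_)⟩
    rw [AddSubgroup.coe_nsmul, locVal_nsmul, locVal_mkLoc, hw]
  · rintro ⟨w, rfl⟩
    refine (QuotientAddGroup.eq_zero_iff _).2 (mem_pSub.2 ?_)
    have ht : ‖locVal K q (w : locUnits K q) - 1‖ ^ ((q : ℕ) - 1) < PadicBall.qNorm (q : ℕ) := by
      refine lt_of_le_of_lt (pow_le_pow_left₀ (norm_nonneg _) w.2 _) ?_
      rw [← pow_mul]
      exact pow_lt_self_of_lt_one₀ PadicBall.qNorm_pos PadicBall.qNorm_lt_one
        (by have := q.2.two_le; omega)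
    have e := PadicBall.norm_pow_q_sub_one ht
    rw [add_sub_cancel] at e
    refine ⟨⟨(locVal K q (w : locUnits K q) ^ (q : ℕ) - 1) / (q : PadicAlgCl (q : ℕ)) ^ 3,
      div_mem (sub_mem (pow_mem (locVal_mem K q _) _) (one_mem _)) (pow_mem (_root_.natCast_mem _ _) 3),
      ?_⟩, Subtype.ext ?_⟩
    · rw [norm_div, e, norm_pow, PadicBall.norm_natCast_q]
      refine div_le_one_of_le₀ ?_ (pow_nonneg PadicBall.qNorm_pos.le 3)
      rw [pow_succ' _ 2]
      exact mul_le_mul_of_nonneg_left w.2 PadicBall.qNorm_pos.le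
    · rw [AddSubgroup.coe_nsmul, nsmul_eq_mul]
      show _ = (locVal K q (((q : ℕ) • w : locBall K q) : locUnits K q) - 1) / _
      rw [AddSubgroup.coe_nsmul, locVal_nsmul]
      field_simp

theorem locBall_torsionFree (y : locBall K q) (h : (q : ℕ) • y = 0) : y = 0 := by
  refine Subtype.ext (locVal_injective K q ?_)
  rw [AddSubgroup.coe_zero, locVal_zero]
  refine PadicBall.eq_of_pow_q_eq y.2 (by
    rw [sub_self, norm_zero]; exact pow_nonneg PadicBall.qNorm_pos.le 2) ?_
  rw [one_pow, ← locVal_nsmul, ← AddSubgroup.coe_nsmul, h]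
  rfl

theorem locBall_bijective_of_ne {p : ℕ} [Fact p.Prime] (hpq : (q : ℕ) ≠ p) :
    Function.Bijective (fun y : locBall K q => p • y) := by
  have hdvd : ¬ (q : ℕ) ∣ p := fun h =>
    hpq ((Nat.prime_dvd_prime_iff_eq q.2 Fact.out).1 h)
  have hlt : PadicBall.qNorm (q : ℕ) ^ 2 < 1 :=
    pow_lt_one₀ PadicBall.qNorm_pos.le PadicBall.qNorm_lt_one two_ne_zero
  refine ⟨fun a b h => Subtype.ext (locVal_injective K q (PadicBall.eq_of_pow_eq hdvd
    (lt_of_le_of_lt a.2 hlt) (lt_of_le_of_lt b.2 hlt) ?_)), fun y => ?_⟩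
  · rw [← locVal_nsmul, ← locVal_nsmul, ← AddSubgroup.coe_nsmul, ← AddSubgroup.coe_nsmul]
    exact congrArg (fun w : locBall K q => locVal K q w) h
  · obtain ⟨w, hw, hw1⟩ := PadicBall.exists_root_of_not_dvd hdvd
      (pow_nonneg PadicBall.qNorm_pos.le 2) hlt y.2
    have hwF : w ∈ localField (emb0 q) K := mem_localField_of_fixed fun τ hτ =>
      PadicBall.eq_of_pow_eq hdvd (lt_of_le_of_lt
        (by rw [← map_one τ, ← map_sub, Existence.norm_localGal]; exact hw1) hlt)
        (lt_of_le_of_lt hw1 hlt) (by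
          rw [← map_pow, hw]
          exact (IntermediateField.mem_fixingSubgroup_iff _ _).mp
            ((locHom_mem_fixingSubgroup_iff K q τ).1 hτ) _ (locVal_mem K q y))
    have hw0 : w ≠ 0 := fun h0 => locVal_ne_zero K q y
      (by rw [← hw, h0, zero_pow (Fact.out : p.Prime).ne_zero])
    refine ⟨⟨mkLoc K q w hwF hw0, hw1⟩, Subtype.ext (locVal_injective K q ?_)⟩
    show locVal K q ((p • (⟨mkLoc K q w hwF hw0, hw1⟩ : locBall K q) : locBall K q) : locUnits K q) = _
    rw [AddSubgroup.coe_nsmul, locVal_nsmul, locVal_mkLoc, hw]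

/-- A normal basis of the local field inside its integers. -/
theorem exists_normalBasis [Fintype (decGroup K q)] :
    ∃ b : Module.Basis (decGroup K q) ℚ_[(q : ℕ)] (localField (emb0 q) K),
      (∀ g, ‖(b g : PadicAlgCl (q : ℕ))‖ ≤ 1) ∧ ∀ g h : decGroup K q,
        ((b (g * h) : localField (emb0 q) K) : PadicAlgCl (q : ℕ)) =
          liftDec g (b h : PadicAlgCl (q : ℕ)) := by
  classical
  have := normal_localField_emb0 K q
  have : IsGalois ℚ_[(q : ℕ)] (localField (emb0 q) K) := ⟨⟩
  let φ : LocalGal q →* Gal((localField (emb0 q) K)/ℚ_[(q : ℕ)]) :=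
    AlgEquiv.restrictNormalHom (localField (emb0 q) K)
  have hφ : ∀ (τ : LocalGal q) (x : localField (emb0 q) K),
      ((φ τ x : localField (emb0 q) K) : PadicAlgCl (q : ℕ)) = τ (x : PadicAlgCl (q : ℕ)) :=
    fun τ x => AlgEquiv.restrictNormal_commutes τ (localField (emb0 q) K) x
  let e : decGroup K q → Gal((localField (emb0 q) K)/ℚ_[(q : ℕ)]) := fun g => φ (liftDec g)
  have he : Function.Bijective e := by
    refine ⟨fun g h hgh => Subtype.ext ?_, fun σ => ?_⟩
    · rw [← liftDec_spec g, ← liftDec_spec h, QuotientGroup.mk'_apply, QuotientGroup.mk'_apply,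
        QuotientGroup.eq, ← map_inv, ← map_mul, locHom_mem_fixingSubgroup_iff,
        IntermediateField.mem_fixingSubgroup_iff]
      intro x hx
      have := hφ (liftDec h) ⟨x, hx⟩
      rw [show φ (liftDec h) = φ (liftDec g) from hgh.symm, hφ] at this
      show (liftDec g)⁻¹ (liftDec h x) = x
      rw [← this]
      exact AlgEquiv.symm_apply_apply (liftDec g) x
    · obtain ⟨τ, rfl⟩ := AlgEquiv.restrictNormalHom_surjective (F := ℚ_[(q : ℕ)])
        (K₁ := localField (emb0 q) K) (PadicAlgCl (q : ℕ)) σ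
      refine ⟨⟨toLevel K (S55.locHom q τ), τ, rfl⟩, AlgEquiv.ext fun x => Subtype.ext ?_⟩
      rw [hφ]
      refine (apply_eq_of_toLevel_eq (liftDec_spec _) x.2).trans ?_
      exact (hφ τ x).symm
  let b0 := (IsGalois.normalBasis ℚ_[(q : ℕ)] (localField (emb0 q) K)).reindex
    (Equiv.ofBijective e he).symm
  have hb0 : ∀ g, b0 g = e g (IsGalois.normalBasis ℚ_[(q : ℕ)] (localField (emb0 q) K) 1) :=
    fun g => by
      simp only [b0, Module.Basis.reindex_apply, Equiv.symm_symm, Equiv.ofBijective_apply]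
      exact IsGalois.normalBasis_apply _
  set θ := IsGalois.normalBasis ℚ_[(q : ℕ)] (localField (emb0 q) K) 1
  obtain ⟨N, hN⟩ : ∃ N : ℕ, PadicBall.qNorm (q : ℕ) ^ N * ‖(θ : PadicAlgCl (q : ℕ))‖ ≤ 1 := by
    obtain ⟨N, hN⟩ := exists_pow_lt_of_lt_one (x := (‖(θ : PadicAlgCl (q : ℕ))‖ + 1)⁻¹)
      (by positivity) (PadicBall.qNorm_lt_one (q := (q : ℕ)))
    refine ⟨N, le_trans (mul_le_mul_of_nonneg_right hN.le (norm_nonneg _)) ?_⟩
    rw [inv_mul_le_iff₀ (by positivity), mul_one]
    exact le_add_of_nonneg_right zero_le_one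
  let c : ℚ_[(q : ℕ)]ˣ := Units.mk0 (((q : ℕ) : ℚ_[(q : ℕ)]) ^ N)
    (pow_ne_zero N (Nat.cast_ne_zero.2 q.2.ne_zero))
  have hb : ∀ g, ((b0.unitsSMul (fun _ => c) g : localField (emb0 q) K) : PadicAlgCl (q : ℕ)) =
      (q : PadicAlgCl (q : ℕ)) ^ N * liftDec g (θ : PadicAlgCl (q : ℕ)) := fun g => by
    rw [Module.Basis.unitsSMul_apply, hb0, ← hφ]
    rw [Units.smul_def, IntermediateField.coe_smul, Algebra.smul_def]
    show algebraMap _ _ ((((q : ℕ) : ℚ_[(q : ℕ)]) ^ N)) * _ = _
    rw [map_pow, map_natCast]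
  refine ⟨b0.unitsSMul fun _ => c, fun g => ?_, fun g h => ?_⟩
  · rw [hb, norm_mul, norm_pow, PadicBall.norm_natCast_q, Existence.norm_localGal]
    exact hN
  · rw [hb, hb, map_mul, map_pow, map_natCast]
    congr 1
    refine (apply_eq_of_toLevel_eq (τ' := liftDec g * liftDec h) ?_ θ.2).trans rfl
    rw [liftDec_spec, map_mul, map_mul, liftDec_spec, liftDec_spec]
    rfl

/-- `ℤ_q[decGroup]` sits in the integers, with finite quotient modulo every power of `q`. -/
theorem exists_indPadic_isogeny :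
    ∃ Λ : Ind (decGroup K q) ℤ_[(q : ℕ)] →+[decGroup K q] locInts K q, Function.Injective Λ ∧
      ∀ k : ℕ, ∃ (Z : Type) (_ : Finite Z) (φ : locInts K q → Z),
        ∀ x y, φ x = φ y → ∃ d, x - y = (q : ℕ) ^ k • Λ d := by
  classical
  let _ := Fintype.ofFinite (decGroup K q)
  obtain ⟨b, hb, hbmul⟩ := exists_normalBasis K q
  let S : (decGroup K q → ℤ_[(q : ℕ)]) → localField (emb0 q) K := fun v =>
    ∑ h, (v h : ℚ_[(q : ℕ)]) • b h
  have hScoe : ∀ v, (S v : PadicAlgCl (q : ℕ)) = ∑ h, algebraMap ℚ_[(q : ℕ)]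
      (PadicAlgCl (q : ℕ)) (v h : ℚ_[(q : ℕ)]) * (b h : PadicAlgCl (q : ℕ)) := fun v => by
    simp only [S, AddSubmonoidClass.coe_finsetSum, Algebra.smul_def]
    rfl
  have hSmem : ∀ v, (S v : PadicAlgCl (q : ℕ)) ∈ locInts K q := fun v => ⟨(S v).2, by
    rw [hScoe]
    refine IsUltrametricDist.norm_sum_le_of_forall_le_of_nonneg zero_le_one fun h _ => ?_
    rw [norm_mul, norm_algebraMap']
    exact mul_le_one₀ (v h).2 (norm_nonneg _) (hb h)⟩
  let Λ : Ind (decGroup K q) ℤ_[(q : ℕ)] →+[decGroup K q] locInts K q :=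
    { toFun := fun f => ⟨S f.val, hSmem _⟩
      map_smul' := fun g f => Subtype.ext (by
        show (S (g • f).val : PadicAlgCl (q : ℕ)) = liftDec g (S f.val : PadicAlgCl (q : ℕ))
        rw [hScoe, hScoe, map_sum]
        refine (Fintype.sum_equiv (Equiv.mulLeft g) _ _ fun h => ?_).symm
        rw [map_mul, AlgEquiv.commutes, Ind.smul_apply, Equiv.coe_mulLeft, inv_mul_cancel_left,
          hbmul])
      map_zero' := Subtype.ext (by
        show (S (0 : Ind (decGroup K q) ℤ_[(q : ℕ)]).val : PadicAlgCl (q : ℕ)) = 0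
        rw [hScoe]
        simp)
      map_add' := fun f f' => Subtype.ext (by
        show (S (f + f').val : PadicAlgCl (q : ℕ)) =
          (S f.val : PadicAlgCl (q : ℕ)) + (S f'.val : PadicAlgCl (q : ℕ))
        rw [hScoe, hScoe, hScoe, ← Finset.sum_add_distrib]
        refine Finset.sum_congr rfl fun h _ => ?_
        rw [Ind.add_apply, PadicInt.coe_add, map_add, add_mul]) }
  have hΛ : Function.Injective Λ := fun f f' h => by
    have e : S f.val = S f'.val :=
      Subtype.ext (congrArg (fun w : locInts K q => (w : PadicAlgCl (q : ℕ))) h)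
    refine Ind.ext (funext fun g => Subtype.ext ?_)
    have := congrArg (fun w => b.repr w g) e
    simpa [S, map_sum, Finsupp.single_apply] using this
  refine ⟨Λ, hΛ, fun k => ?_⟩
  -- the coordinates of integers are bounded
  let co : localField (emb0 q) K →L[ℚ_[(q : ℕ)]] (decGroup K q → ℚ_[(q : ℕ)]) :=
    LinearMap.toContinuousLinearMap b.equivFun.toLinearMap
  obtain ⟨m, hm⟩ : ∃ m : ℕ, PadicBall.qNorm (q : ℕ) ^ m * ‖co‖ ≤ 1 := by
    obtain ⟨m, hm⟩ := exists_pow_lt_of_lt_one (x := (‖co‖ + 1)⁻¹)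
      (by positivity) (PadicBall.qNorm_lt_one (q := (q : ℕ)))
    refine ⟨m, le_trans (mul_le_mul_of_nonneg_right hm.le (norm_nonneg _)) ?_⟩
    rw [inv_mul_le_iff₀ (by positivity), mul_one]
    exact le_add_of_nonneg_right zero_le_one
  let c : locInts K q → decGroup K q → ℤ_[(q : ℕ)] := fun x g =>
    ⟨((q : ℕ) : ℚ_[(q : ℕ)]) ^ m * co ⟨x, x.2.1⟩ g, by
      rw [norm_mul, norm_pow, Padic.norm_p]
      refine le_trans (mul_le_mul_of_nonneg_left ?_ (pow_nonneg PadicBall.qNorm_pos.le m)) hm
      exact (norm_le_pi_norm _ g).trans ((co.le_opNorm _).trans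
        (mul_le_of_le_one_right (norm_nonneg _) x.2.2))⟩
  have hc : ∀ x : locInts K q,
      (S (c x) : PadicAlgCl (q : ℕ)) = (q : PadicAlgCl (q : ℕ)) ^ m * x := fun x => by
    have h := congrArg (fun w : localField (emb0 q) K => (w : PadicAlgCl (q : ℕ)))
      (b.sum_equivFun ⟨x, x.2.1⟩)
    simp only [AddSubmonoidClass.coe_finsetSum, Algebra.smul_def] at h
    rw [hScoe, ← h, Finset.mul_sum]
    refine Finset.sum_congr rfl fun g _ => ?_
    show algebraMap _ _ (((q : ℕ) : ℚ_[(q : ℕ)]) ^ m * b.equivFun ⟨x, x.2.1⟩ g) * _ = _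
    rw [map_mul, map_pow, map_natCast, mul_assoc]
    rfl
  refine ⟨decGroup K q → ZMod ((q : ℕ) ^ (m + k)), inferInstance,
    fun x g => PadicInt.toZModPow (m + k) (c x g), fun x y h => ?_⟩
  have hd : ∀ g, ∃ d : ℤ_[(q : ℕ)], c x g - c y g = ((q : ℕ) : ℤ_[(q : ℕ)]) ^ (m + k) * d := fun g => by
    have h1 : c x g - c y g ∈ RingHom.ker (PadicInt.toZModPow (p := (q : ℕ)) (m + k)) := by
      rw [RingHom.mem_ker, map_sub, sub_eq_zero]
      exact congrFun h g
    rwa [PadicInt.ker_toZModPow, Ideal.mem_span_singleton] at h1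
  choose d hd using hd
  refine ⟨⟨d⟩, Subtype.ext ?_⟩
  show (x : PadicAlgCl (q : ℕ)) - y = (((q : ℕ) ^ k • Λ ⟨d⟩ : locInts K q) : PadicAlgCl (q : ℕ))
  rw [AddSubgroup.coe_nsmul, nsmul_eq_mul]
  show _ = _ * (S d : PadicAlgCl (q : ℕ))
  refine mul_left_cancel₀ (pow_ne_zero m (Nat.cast_ne_zero.2 q.2.ne_zero) :
    (q : PadicAlgCl (q : ℕ)) ^ m ≠ 0) ?_
  rw [mul_sub, ← hc, ← hc, hScoe, hScoe, hScoe, ← Finset.sum_sub_distrib, Finset.mul_sum,
    Finset.mul_sum]
  refine Finset.sum_congr rfl fun g _ => ?_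
  rw [← sub_mul, ← map_sub, ← PadicInt.coe_sub, hd g, PadicInt.coe_mul, PadicInt.coe_pow,
    PadicInt.coe_natCast, map_mul, map_pow, map_natCast, Nat.cast_pow, pow_add]
  ring

theorem finite_quot_range_of_injOn {X Y : Type} [AddCommGroup X] [AddCommGroup Y] (f : X →+ Y)
    {Z : Type} [Finite Z] (φ : Y → Z) (h : ∀ x y, φ x = φ y → -x + y ∈ f.range) :
    Finite (Y ⧸ f.range) :=
  Finite.of_injective (fun c : Y ⧸ f.range => φ c.out) fun a b hab => by
    rw [← a.out_eq, ← b.out_eq]
    exact QuotientAddGroup.eq.2 (h _ _ hab)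

theorem finite_ker_of_injective {G X Y : Type} [Group G] [AddCommGroup X] [DistribMulAction G X]
    [AddCommGroup Y] [DistribMulAction G Y] (f : X →+[G] Y) (hf : Function.Injective f) :
    Finite (kerOf f) :=
  have : Subsingleton (kerOf f) :=
    ⟨fun a b => Subtype.ext (hf ((mem_kerOf.1 a.2).trans (mem_kerOf.1 b.2).symm))⟩
  inferInstance

theorem finite_coker_ballIncl :
    Finite (locUnitOne K q ⧸ (ballIncl K q : locBall K q →+ locUnitOne K q).range) := by
  obtain ⟨Λ, -, hΛ⟩ := exists_indPadic_isogeny K q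
  obtain ⟨Z, hZ, φ, hφ⟩ := hΛ 2
  refine finite_quot_range_of_injOn _
    (fun y : locUnitOne K q => φ ⟨locVal K q y, locVal_mem K q y, le_of_eq y.2⟩) fun y z h => ?_
  obtain ⟨d, hd⟩ := hφ _ _ h.symm
  have hd' : locVal K q z - locVal K q y =
      (q : PadicAlgCl (q : ℕ)) ^ 2 * ((Λ d : locInts K q) : PadicAlgCl (q : ℕ)) := by
    have := congrArg (fun w : locInts K q => (w : PadicAlgCl (q : ℕ))) hd
    simp only [AddSubgroup.coe_nsmul, AddSubgroup.coe_sub, nsmul_eq_mul, Nat.cast_pow] at this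
    exact this
  have hmem : (-(y : locUnits K q) + z) ∈ locBall K q := by
    show ‖locVal K q _ - 1‖ ≤ _
    rw [locVal_add, locVal_neg, inv_mul_eq_div, div_sub_one (locVal_ne_zero K q y), norm_div,
      show ‖locVal K q (y : locUnits K q)‖ = 1 from y.2, div_one, hd', norm_mul, norm_pow,
      PadicBall.norm_natCast_q]
    exact mul_le_of_le_one_right (pow_nonneg PadicBall.qNorm_pos.le 2) (Λ d).2.2
  exact ⟨⟨_, hmem⟩, Subtype.ext rfl⟩

theorem finite_coker_of_isogeny {Λ : Ind (decGroup K q) ℤ_[(q : ℕ)] →+[decGroup K q] locInts K q}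
    (hΛ : ∀ k : ℕ, ∃ (Z : Type) (_ : Finite Z) (φ : locInts K q → Z),
      ∀ x y, φ x = φ y → ∃ d, x - y = (q : ℕ) ^ k • Λ d) :
    Finite (locInts K q ⧸ (Λ : Ind (decGroup K q) ℤ_[(q : ℕ)] →+ locInts K q).range) := by
  obtain ⟨Z, hZ, φ, hφ⟩ := hΛ 0
  refine finite_quot_range_of_injOn _ φ fun x y h => ?_
  obtain ⟨d, hd⟩ := hφ _ _ h.symm
  rw [pow_zero, one_smul] at hd
  exact ⟨d, by rw [neg_add_eq_sub]; exact hd.symm⟩

theorem locInts_torsionFree {n : ℕ} (hn : n ≠ 0) (x : locInts K q) (h : n • x = 0) : x = 0 := by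
  have h' := congrArg (fun w : locInts K q => (w : PadicAlgCl (q : ℕ))) h
  simp only [AddSubgroup.coe_nsmul, nsmul_eq_mul, AddSubgroup.coe_zero, mul_eq_zero,
    Nat.cast_eq_zero, hn, false_or] at h'
  exact Subtype.ext h'

theorem pFinite_indPadic (G : Type) [Group G] [Finite G] (p : ℕ) [Fact p.Prime] :
    PFinite p (Ind G ℤ_[p]) := by
  have : Subsingleton {x : Ind G ℤ_[p] // p • x = 0} := ⟨fun a b => by
    have h0 : ∀ w : {x : Ind G ℤ_[p] // p • x = 0}, ∀ τ, w.1.val τ = 0 := fun w τ => by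
      have := congrArg (fun v : Ind G ℤ_[p] => v.val τ) w.2
      simp only [Ind.nsmul_apply, Ind.zero_apply, nsmul_eq_mul] at this
      exact (mul_eq_zero.1 this).resolve_left (Nat.cast_ne_zero.2 (Fact.out : p.Prime).ne_zero)
    exact Subtype.ext (Ind.ext (funext fun τ => (h0 a τ).trans (h0 b τ).symm))⟩
  refine ⟨Finite.of_surjective (fun v : G → ZMod p =>
    (QuotientAddGroup.mk ⟨fun τ => ((v τ).val : ℤ_[p])⟩ : Ind G ℤ_[p] ⧸ pSub p (Ind G ℤ_[p])))
    fun x => ?_, inferInstance⟩
  induction x using QuotientAddGroup.induction_on with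
  | H f =>
    refine ⟨fun τ => PadicInt.toZMod (f.val τ), QuotientAddGroup.eq.2 (mem_pSub.2 ?_)⟩
    have hd : ∀ τ, ∃ d : ℤ_[p],
        -((PadicInt.toZMod (f.val τ)).val : ℤ_[p]) + f.val τ = (p : ℤ_[p]) * d := fun τ => by
      have h1 : -((PadicInt.toZMod (f.val τ)).val : ℤ_[p]) + f.val τ ∈
          RingHom.ker (PadicInt.toZMod (p := p)) := by
        rw [RingHom.mem_ker, map_add, map_neg, map_natCast, ZMod.natCast_zmod_val, neg_add_cancel]
      rwa [PadicInt.ker_toZMod, PadicInt.maximalIdeal_eq_span_p, Ideal.mem_span_singleton] at h1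
    choose d hd using hd
    exact ⟨⟨d⟩, Ind.ext (funext fun τ => by
      rw [Ind.nsmul_apply, nsmul_eq_mul, Ind.add_apply, Ind.neg_apply]
      exact (hd τ).symm)⟩

end Field

variable {p : ℕ} [Fact p.Prime]

theorem pFinite_locBall : PFinite p (locBall K q) := by
  by_cases hpq : (q : ℕ) = p
  · subst hpq
    obtain ⟨Λ, hinj, hΛ⟩ := exists_indPadic_isogeny K q
    have hI : PFinite (q : ℕ) (locInts K q) :=
      (qHom_of_isogeny (M := PUnit) (H := (⊥ : Subgroup (decGroup K q)))
        (by rw [Subgroup.card_bot]; exact q.2.not_dvd_one) (fun _ => rfl) (pFinite_indPadic _ _)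
        (restrictHom ⊥ Λ) (finite_ker_of_injective _ hinj) (finite_coker_of_isogeny K q hΛ)).1
    have := hI.quot
    have : Subsingleton {y : locBall K q // (q : ℕ) • y = 0} := ⟨fun a b => Subtype.ext
      ((locBall_torsionFree K q _ a.2).trans (locBall_torsionFree K q _ b.2).symm)⟩
    refine ⟨Finite.of_injective (fun c : locBall K q ⧸ pSub (q : ℕ) (locBall K q) =>
      ballRed K q c.out) fun a b h => ?_, inferInstance⟩
    rw [← a.out_eq, ← b.out_eq]
    refine QuotientAddGroup.eq.2 (mem_pSub.2 ((ballRed_eq_zero_iff K q _).1 ?_))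
    rw [map_add, map_neg, neg_add_eq_zero]
    exact h
  · have hb := locBall_bijective_of_ne K q (p := p) hpq
    have : Subsingleton {y : locBall K q // p • y = 0} := ⟨fun a b => Subtype.ext
      (hb.1 (a.2.trans b.2.symm))⟩
    have : Subsingleton (locBall K q ⧸ pSub p (locBall K q)) := ⟨fun a b => by
      induction a using QuotientAddGroup.induction_on with
      | H x =>
        induction b using QuotientAddGroup.induction_on with
        | H y =>
          obtain ⟨z, hz⟩ := hb.2 (-x + y)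
          exact QuotientAddGroup.eq.2 (mem_pSub.2 ⟨z, hz⟩)⟩
    exact ⟨inferInstance, inferInstance⟩

theorem pFinite_locUnitOne : PFinite p (locUnitOne K q) :=
  (qHom_of_isogeny (M := PUnit) (H := (⊥ : Subgroup (decGroup K q)))
    (by rw [Subgroup.card_bot]; exact (Fact.out : p.Prime).not_dvd_one) (fun _ => rfl)
    (pFinite_locBall K q) (restrictHom ⊥ (ballIncl K q))
    (finite_ker_of_injective _ (ballIncl_injective K q)) (finite_coker_ballIncl K q)).1

/-- `qHom` of the units coinduced to the level group. -/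
theorem qHom_coind_locUnitOne {M : Type} [AddCommGroup M] [DistribMulAction (LevelGroup K) M]
    [Finite M] (hM : ∀ x : M, p • x = 0) (D : Subgroup (LevelGroup K)) (hD : ¬ p ∣ Nat.card D) :
    qHom D p M (Coind (decGroup K q) (locUnitOne K q)) =
      if (q : ℕ) = p then qHom D p M (Ind (LevelGroup K) ℤ) else 0 := by
  rw [(qHom_coind_isogeny hM D hD (pFinite_locBall K q) (ballIncl K q)
    (finite_ker_of_injective _ (ballIncl_injective K q)) (finite_coker_ballIncl K q)).2]
  split_ifs with hpq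
  · subst hpq
    obtain ⟨Λ, hinj, hΛ⟩ := exists_indPadic_isogeny K q
    rw [qHom_coind_eq_of_reduction D (ballRed K q) (pRed (decGroup K q) (q : ℕ))
      (ballRed_surjective K q) QuotientAddGroup.mk_surjective (ballRed_eq_zero_iff K q)
      (fun x => (QuotientAddGroup.eq_zero_iff x).trans mem_pSub)
      (locBall_torsionFree K q) (locInts_torsionFree K q q.2.ne_zero),
      (qHom_coind_isogeny hM D hD (pFinite_indPadic _ _) Λ (finite_ker_of_injective _ hinj)
        (finite_coker_of_isogeny K q hΛ)).2, qHom_coind_indPadic _ D hM hD]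
  · exact qHom_coind_of_bijective hM D hD (locBall_bijective_of_ne K q hpq)

/-- `qHom` of the units. -/
theorem qHom_locUnitOne {M : Type} [AddCommGroup M] [DistribMulAction (decGroup K q) M]
    [Finite M] (hM : ∀ x : M, p • x = 0) (D : Subgroup (decGroup K q)) (hD : ¬ p ∣ Nat.card D) :
    qHom D p M (locUnitOne K q) = if (q : ℕ) = p then qHom D p M (Ind (decGroup K q) ℤ) else 0 := by
  rw [(qHom_of_isogeny hD hM (pFinite_locBall K q) (restrictHom D (ballIncl K q))
    (finite_ker_of_injective _ (ballIncl_injective K q)) (finite_coker_ballIncl K q)).2]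
  split_ifs with hpq
  · subst hpq
    obtain ⟨Λ, hinj, hΛ⟩ := exists_indPadic_isogeny K q
    rw [qHom_eq_of_reduction (restrictHom D (ballRed K q))
      (restrictHom D (pRed (decGroup K q) (q : ℕ))) (ballRed_surjective K q)
      QuotientAddGroup.mk_surjective (ballRed_eq_zero_iff K q)
      (fun x => (QuotientAddGroup.eq_zero_iff x).trans mem_pSub)
      (locBall_torsionFree K q) (locInts_torsionFree K q q.2.ne_zero),
      (qHom_of_isogeny hD hM (pFinite_indPadic _ _) (restrictHom D Λ)
        (finite_ker_of_injective _ hinj) (finite_coker_of_isogeny K q hΛ)).2, qHom_indPadic D]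
  · exact qHom_of_bijective_pMul hD hM (locBall_bijective_of_ne K q hpq)

theorem qHom_locUnits {M : Type} [AddCommGroup M] [DistribMulAction (decGroup K q) M]
    [Finite M] (hM : ∀ x : M, p • x = 0) (D : Subgroup (decGroup K q)) (hD : ¬ p ∣ Nat.card D) :
    PFinite p (locUnits K q) ∧ qHom D p M (locUnits K q) =
      qHom D p M TrivZ + if (q : ℕ) = p then qHom D p M (Ind (decGroup K q) ℤ) else 0 := by
  obtain ⟨h1, h2⟩ := qHom_add hD hM (pFinite_locUnitOne K q) (pFinite_of_moduleFinite TrivZ)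
    (restrictHom D (unitOneIncl K q)) (restrictHom D (locOrd K q))
    (fun _ _ h => Subtype.ext h) (locOrd_surjective K q) fun y =>
      (locOrd_eq_zero_iff K q y).trans ⟨fun h => ⟨⟨y, h⟩, rfl⟩, fun ⟨x, hx⟩ => hx ▸ x.2⟩
  exact ⟨h1, by rw [h2, qHom_locUnitOne K q hM D hD, add_comm]⟩

/-- The local Euler characteristic. -/
theorem euler_locUnits {M : Type} [AddCommGroup M] [DistribMulAction (decGroup K q) M] [Finite M]
    [Module (ZMod p) M] [Fintype (decGroup K q)] :
    euler p (freeCover (decGroup K q) M) (locUnits K q) =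
      dlog p (fixedSub (decGroup K q) M) + if (q : ℕ) = p then dlog p M else 0 := by
  have hM : ∀ x : M, p • x = 0 := ZModModule.char_nsmul_eq_zero p
  obtain ⟨u, hu⟩ := exists_isPClassModule_locUnits K q (p := p)
  have hf := (qHom_locUnits K q hM (⊥ : Subgroup (decGroup K q))
    (by rw [Subgroup.card_bot]; exact (Fact.out : p.Prime).not_dvd_one)).1
  rw [euler_classModule_of_qHom hu hf (if (q : ℕ) = p then 1 else 0) fun D _ hD => ?_]
  · split_ifs <;> simp
  · rw [(qHom_locUnits K q hM D hD).2]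
    split_ifs <;> simp

end Fermat.Agent.ClassField.GW

end
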